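import Mathlib
import Fermat.Agent.Arith.Places
import Fermat.Agent.Arith.ValueGroup

/-!
# Elementary facts on a place of the algebraic closure of `ℚ` over a prime `q`

Bounded subsets of a number field attain their maximal valuation, and the valuation has rank one.
-/

set_option autoImplicit false

noncomputable section

namespace Fermat.Agent.Semistable

open Arith (QBar)
open Polynomial

variable {q : ℕ} {A : ValuationSubring QBar}

theorem valuation_eq_one {x : QBar} (hx : x ∈ A) (hu : x ∉ A.nonunits) : A.valuation x = 1 :=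
  le_antisymm ((A.valuation_le_one_iff x).mpr hx)
    (not_lt.mp fun h => hu ((ValuationSubring.mem_nonunits_iff A).mpr h))

/-- A bounded nonempty subset of a number field attains its maximal valuation. -/
theorem exists_max_valuation (hA : A.LiesOverPrime q) (hq : q.Prime)
    (L : IntermediateField ℚ QBar) [FiniteDimensional ℚ L] {X : Set QBar}
    (hXL : ∀ x ∈ X, x ∈ L) (hXA : ∀ x ∈ X, x ∈ A) (hne : X.Nonempty) :
    ∃ m ∈ X, ∀ x ∈ X, A.valuation x ≤ A.valuation m := by
  choose e heL hei hex heu using fun x : X =>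
    Arith.exists_fraction_mem hA hq L (hXL x x.2) (hXA x x.2)
  let a : X → integralClosure ℤ L := fun x =>
    ⟨⟨x.1 * e x, mul_mem (hXL x x.2) (heL x)⟩,
      (isIntegral_algHom_iff (IsScalarTower.toAlgHom ℤ L QBar)
        (algebraMap L QBar).injective).mp (hex x)⟩
  let ι : integralClosure ℤ L → QBar := fun r => ((r : L) : QBar)
  have hιA : ∀ r, ι r ∈ A := fun r =>
    Arith.mem_of_isIntegral A (r.2.map (IsScalarTower.toAlgHom ℤ L QBar))
  have hval : ∀ x : X, A.valuation (ι (a x)) = A.valuation x.1 := fun x => by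
    show A.valuation (x.1 * e x) = _
    rw [map_mul, valuation_eq_one (Arith.mem_of_isIntegral A (hei x)) (heu x), mul_one]
  have : IsNoetherian ℤ (integralClosure ℤ L) :=
    IsIntegralClosure.isNoetherian ℤ ℚ L (integralClosure ℤ L)
  have hfg : (Submodule.span ℤ (Set.range a)).FG := IsNoetherian.noetherian _
  obtain ⟨s, hs, hspan⟩ := (Submodule.fg_span_iff_fg_span_finset_subset _).mp hfg
  rcases s.eq_empty_or_nonempty with rfl | hsne
  · obtain ⟨m, hm⟩ := hne
    refine ⟨m, hm, fun x hx => ?_⟩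
    have hz : a ⟨x, hx⟩ ∈ Submodule.span ℤ (Set.range a) := Submodule.subset_span ⟨_, rfl⟩
    rw [hspan, Finset.coe_empty, Submodule.span_empty, Submodule.mem_bot] at hz
    rw [← hval ⟨x, hx⟩, hz]
    simp [ι]
  obtain ⟨g, hg, hgmax⟩ := s.exists_max_image (fun r => A.valuation (ι r)) hsne
  obtain ⟨m, hm⟩ := hs hg
  refine ⟨m.1, m.2, fun x hx => ?_⟩
  rw [← hval ⟨x, hx⟩, ← hval m, hm]
  have hz : a ⟨x, hx⟩ ∈ Submodule.span ℤ (Set.range a) := Submodule.subset_span ⟨_, rfl⟩
  rw [hspan] at hz
  generalize a ⟨x, hx⟩ = z at hz ⊢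
  induction hz using Submodule.span_induction with
  | mem r hr => exact hgmax r hr
  | zero => simp [ι]
  | add r r' _ _ hr hr' =>
    show A.valuation (ι r + ι r') ≤ _
    exact Valuation.map_add_le _ hr hr'
  | smul c r _ hr =>
    show A.valuation ((((c • r : integralClosure ℤ L) : L) : QBar)) ≤ _
    rw [show ((((c • r : integralClosure ℤ L) : L) : QBar)) = (c : QBar) * ι r by
      simp [ι, zsmul_eq_mul], map_mul]
    calc A.valuation (c : QBar) * A.valuation (ι r) ≤ 1 * A.valuation (ι g) :=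
          mul_le_mul' ((A.valuation_le_one_iff _).mpr (intCast_mem A c)) hr
      _ = _ := one_mul _

/-- Powers of a nonunit become smaller than any nonzero element. -/
theorem exists_pow_valuation_lt (hA : A.LiesOverPrime q) (hq : q.Prime) {π s : QBar}
    (hπ : π ∈ A.nonunits) (hs : s ≠ 0) : ∃ n : ℕ, A.valuation (π ^ n) < A.valuation s := by
  have hπ1 : A.valuation π < 1 := (ValuationSubring.mem_nonunits_iff A).mp hπ
  rcases eq_or_ne π 0 with rfl | hπ0
  · exact ⟨1, by simpa using zero_lt_iff.mpr ((Valuation.ne_zero_iff _).mpr hs)⟩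
  obtain ⟨e, he, z, hz⟩ := Arith.exists_pow_valuation_eq_zpow hA hq hπ0
  obtain ⟨m, hm, w, hw⟩ := Arith.exists_pow_valuation_eq_zpow hA hq hs
  have h1 : A.valuation (q : QBar) ^ z < A.valuation (q : QBar) ^ (0 : ℤ) := by
    rw [zpow_zero, ← hz]; exact pow_lt_one₀ zero_le hπ1 he.ne'
  have hz0 : 0 < z := not_le.mp fun h => h1.not_ge ((Arith.zpow_le_zpow_iff_prime hA hq).mpr h)
  refine ⟨e * (w.natAbs + 1), lt_of_not_ge fun hle => ?_⟩
  have h2 := pow_le_pow_left' hle m
  rw [hw, map_pow, pow_mul, hz, ← pow_mul, ← zpow_natCast, ← zpow_mul,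
    Arith.zpow_le_zpow_iff_prime hA hq] at h2
  push_cast at h2
  have h3 : (1 : ℤ) ≤ z * m := mul_pos hz0 (Int.natCast_pos.mpr hm)
  nlinarith [le_abs_self w, mul_nonneg (sub_nonneg.mpr h3) (abs_nonneg w)]

end Fermat.Agent.Semistable

end
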