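import Mathlib
import Fermat.Agent.ModFun.Field
import Fermat.Agent.Semistable.Atkin

/-!
# The involution `w` of the function field of level `q M`

`w` exchanges `j (d τ)` and `j (q d τ)` for `d ∣ M`; it commutes with the action of the Galois
group on coefficients.
-/

set_option autoImplicit false

noncomputable section

namespace Fermat.Agent.Semistable

open ModularCurve
open Arith (QBar)
open scoped IntermediateField.algebraAdjoinAdjoin

section Generic

variable {K E : Type*} [Field K] [Field E] [Algebra K E] {ι : Type*} (g : ι → E) (π : ι → ι)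

/-- A substitution of generators preserving relations extends to the generated subfield. -/
theorem exists_algHom_of_relations (hπ : Function.Involutive π)
    (h : ∀ P : MvPolynomial ι K, MvPolynomial.aeval g P = 0 →
      MvPolynomial.aeval (fun i => g (π i)) P = 0) :
    ∃ w : IntermediateField.adjoin K (Set.range g) →ₐ[K] IntermediateField.adjoin K (Set.range g),
      ∀ i, (w ⟨g i, IntermediateField.subset_adjoin K _ ⟨i, rfl⟩⟩ : E) = g (π i) := by
  set R := Algebra.adjoin K (Set.range g) with hR
  set F := IntermediateField.adjoin K (Set.range g) with hF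
  have hmem : ∀ P : MvPolynomial ι K, MvPolynomial.aeval g P ∈ R := fun P => by
    rw [hR, Algebra.adjoin_range_eq_range_aeval]; exact ⟨P, rfl⟩
  have hsurj : ∀ r : R, ∃ P : MvPolynomial ι K, MvPolynomial.aeval g P = (r : E) := fun r => by
    obtain ⟨r, hr⟩ := r
    rw [hR, Algebra.adjoin_range_eq_range_aeval] at hr
    exact hr
  choose pre hpre using hsurj
  have hwell : ∀ P Q : MvPolynomial ι K, MvPolynomial.aeval g P = MvPolynomial.aeval g Q →
      MvPolynomial.aeval (fun i => g (π i)) P = MvPolynomial.aeval (fun i => g (π i)) Q := by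
    intro P Q hPQ
    rw [← sub_eq_zero, ← map_sub]
    exact h _ (by rw [map_sub, hPQ, sub_self])
  have himg : ∀ P : MvPolynomial ι K, MvPolynomial.aeval (fun i => g (π i)) P ∈ F := fun P => by
    refine IntermediateField.algebra_adjoin_le_adjoin K _ ?_
    rw [show (fun i => g (π i)) = g ∘ π from rfl, ← MvPolynomial.aeval_rename]
    exact hmem _
  let φ : R →ₐ[K] F :=
    { toFun := fun r => ⟨MvPolynomial.aeval (fun i => g (π i)) (pre r), himg _⟩
      map_one' := Subtype.ext (by
        show MvPolynomial.aeval _ _ = (1 : E)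
        rw [hwell _ 1 (by rw [hpre, map_one]; rfl), map_one])
      map_mul' := fun x y => Subtype.ext (by
        show MvPolynomial.aeval _ _ = MvPolynomial.aeval _ _ * MvPolynomial.aeval _ _
        rw [hwell _ (pre x * pre y) (by rw [map_mul, hpre, hpre, hpre]; rfl), map_mul])
      map_zero' := Subtype.ext (by
        show MvPolynomial.aeval _ _ = (0 : E)
        rw [hwell _ 0 (by rw [hpre, map_zero]; rfl), map_zero])
      map_add' := fun x y => Subtype.ext (by
        show MvPolynomial.aeval _ _ = MvPolynomial.aeval _ _ + MvPolynomial.aeval _ _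
        rw [hwell _ (pre x + pre y) (by rw [map_add, hpre, hpre, hpre]; rfl), map_add])
      commutes' := fun c => Subtype.ext (by
        show MvPolynomial.aeval _ _ = algebraMap K E c
        rw [hwell _ (MvPolynomial.C c) (by rw [hpre, MvPolynomial.algHom_C]; rfl),
          MvPolynomial.algHom_C]) }
  have hφ : ∀ P : MvPolynomial ι K,
      (φ ⟨_, hmem P⟩ : E) = MvPolynomial.aeval (fun i => g (π i)) P :=
    fun P => hwell _ P (hpre ⟨_, hmem P⟩)
  have hinj : Function.Injective φ := by
    rw [injective_iff_map_eq_zero]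
    intro r hr
    refine Subtype.ext ?_
    have h1 : MvPolynomial.aeval g (MvPolynomial.rename π (pre r)) = 0 := by
      rw [MvPolynomial.aeval_rename]
      exact congrArg Subtype.val hr
    have h2 := h _ h1
    rw [MvPolynomial.aeval_rename] at h2
    have e : (fun i => g (π i)) ∘ π = g := funext fun i => congrArg g (hπ i)
    rw [e, hpre] at h2
    exact h2
  refine ⟨IsFractionRing.liftAlgHom hinj, fun i => ?_⟩
  have h1 : (⟨g i, IntermediateField.subset_adjoin K _ ⟨i, rfl⟩⟩ : F) =
      algebraMap R F ⟨_, hmem (MvPolynomial.X i)⟩ := Subtype.ext (by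
    show g i = MvPolynomial.aeval g (MvPolynomial.X i)
    rw [MvPolynomial.aeval_X])
  rw [h1, IsFractionRing.liftAlgHom_apply, IsFractionRing.lift_algebraMap]
  exact (hφ _).trans (MvPolynomial.aeval_X _ i)

end Generic

variable (q M : ℕ) [hq : Fact q.Prime] [NeZero M] (hqM : ¬ q ∣ M)

/-- The function field of level `N` over the algebraic numbers. -/
abbrev FB (N : ℕ) : IntermediateField QBar LSer := modularFunctionFieldBar N

theorem fb_eq_adjoin (N : ℕ) [NeZero N] :
    FB N = IntermediateField.adjoin QBar (Set.range (gen QBar : Dvs N → LSer)) := by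
  rw [range_gen]
  exact ModFun.laurentBaseChange_eq_fullC N QBar

theorem gen_mem (N : ℕ) [NeZero N] (d : Dvs N) : gen QBar d ∈ FB N := by
  rw [fb_eq_adjoin]
  exact IntermediateField.subset_adjoin _ _ ⟨d, rfl⟩

/-- A generator as an element of the function field. -/
def genF (N : ℕ) [NeZero N] (d : Dvs N) : FB N := ⟨gen QBar d, gen_mem N d⟩

@[simp]
theorem coe_genF (N : ℕ) [NeZero N] (d : Dvs N) : (genF N d : LSer) = gen QBar d := rfl

/-- Homomorphisms out of the function field are determined by the generators and constants. -/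
theorem fb_ringHom_ext {N : ℕ} [NeZero N] {R : Type*} [Field R] {φ ψ : FB N →+* R}
    (hc : ∀ a, φ (algebraMap QBar (FB N) a) = ψ (algebraMap QBar (FB N) a))
    (hg : ∀ d, φ (genF N d) = ψ (genF N d)) : φ = ψ := by
  let : Algebra QBar R := (φ.comp (algebraMap QBar (FB N))).toAlgebra
  exact congrArg AlgHom.toRingHom (IntermediateField.algHom_ext_of_eq_adjoin QBar (fb_eq_adjoin N)
    (φ₁ := ({ φ with commutes' := fun _ => rfl } : FB N →ₐ[QBar] R))
    (φ₂ := ({ ψ with commutes' := fun a => (hc a).symm } : FB N →ₐ[QBar] R))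
    (by rintro _ ⟨d, rfl⟩; exact hg d))

include hqM in
theorem exists_wHom : ∃ w : FB (q * M) →ₐ[QBar] FB (q * M),
    ∀ d, w (genF (q * M) d) = genF (q * M) (swapDvs q M hqM d) := by
  obtain ⟨w, hw⟩ := exists_algHom_of_relations (gen QBar : Dvs (q * M) → LSer) (swapDvs q M hqM)
    (swapDvs_swapDvs q M hqM) (aeval_swap q M hqM)
  let e := IntermediateField.equivOfEq (fb_eq_adjoin (q * M))
  refine ⟨(e.symm.toAlgHom.comp w).comp e.toAlgHom, fun d => Subtype.ext ?_⟩
  exact hw d

/-- `w` as an algebra map. -/
def wHom : FB (q * M) →ₐ[QBar] FB (q * M) := (exists_wHom q M hqM).choose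

theorem wHom_gen (d : Dvs (q * M)) :
    wHom q M hqM (genF (q * M) d) = genF (q * M) (swapDvs q M hqM d) :=
  (exists_wHom q M hqM).choose_spec d

theorem wHom_wHom (x : FB (q * M)) : wHom q M hqM (wHom q M hqM x) = x := by
  have h : (wHom q M hqM).toRingHom.comp (wHom q M hqM).toRingHom = RingHom.id _ :=
    fb_ringHom_ext (fun a => by simp) fun d => by
      show wHom q M hqM (wHom q M hqM _) = _
      rw [wHom_gen, wHom_gen, swapDvs_swapDvs]
      rfl
  exact DFunLike.congr_fun h x

/-- The involution `w`. -/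
def wEquiv : FB (q * M) ≃ₐ[QBar] FB (q * M) :=
  AlgEquiv.ofAlgHom (wHom q M hqM) (wHom q M hqM)
    (AlgHom.ext (wHom_wHom q M hqM)) (AlgHom.ext (wHom_wHom q M hqM))

theorem wEquiv_wEquiv (x : FB (q * M)) : wEquiv q M hqM (wEquiv q M hqM x) = x :=
  wHom_wHom q M hqM x

theorem wEquiv_gen (d : Dvs (q * M)) :
    wEquiv q M hqM (genF (q * M) d) = genF (q * M) (swapDvs q M hqM d) := wHom_gen q M hqM d

theorem wEquiv_gen_of_dvd {d : ℕ} [NeZero d] (hd : d ∣ M) :
    (wEquiv q M hqM (genF (q * M) ⟨d, dvd_mul_of_dvd_right hd q⟩) : LSer) =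
      qExpand QBar (q * d) (jqModC QBar) := by
  rw [wEquiv_gen, coe_genF, gen]
  apply qExpand_congr
  exact swapFun_of_dvd q M ((Nat.Prime.coprime_iff_not_dvd hq.out).mpr hqM) hq.out.ne_one hd

theorem wEquiv_gen_mul {d : ℕ} [NeZero d] (hd : d ∣ M) :
    (wEquiv q M hqM (genF (q * M) ⟨q * d, mul_dvd_mul_left q hd⟩) : LSer) =
      qExpand QBar d (jqModC QBar) := by
  rw [wEquiv_gen, coe_genF, gen]
  apply qExpand_congr
  exact swapFun_mul q hq.out.ne_zero d

/-- `w` commutes with Galois. -/
theorem wEquiv_galois (σ : Arith.GQ) (x : FB (q * M)) :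
    wEquiv q M hqM (arithmeticRingAut (modularFunctionFieldFull (q * M)) σ x) =
      arithmeticRingAut (modularFunctionFieldFull (q * M)) σ (wEquiv q M hqM x) := by
  have hfix : ∀ d : Dvs (q * M),
      arithmeticRingAut (modularFunctionFieldFull (q * M)) σ (genF (q * M) d) = genF (q * M) d :=
    fun d => Subtype.ext (coeffMap_gen _ d)
  have h : (wEquiv q M hqM).toRingEquiv.toRingHom.comp
      (arithmeticRingAut (modularFunctionFieldFull (q * M)) σ).toRingHom =
      (arithmeticRingAut (modularFunctionFieldFull (q * M)) σ).toRingHom.comp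
        (wEquiv q M hqM).toRingEquiv.toRingHom := by
    refine fb_ringHom_ext (fun a => ?_) fun d => ?_
    · show wEquiv q M hqM (arithmeticRingAut _ σ (algebraMap QBar _ a)) =
        arithmeticRingAut _ σ (wEquiv q M hqM (algebraMap QBar _ a))
      rw [arithmeticRingAut_algebraMap, AlgEquiv.commutes, AlgEquiv.commutes,
        arithmeticRingAut_algebraMap]
    · show wEquiv q M hqM (arithmeticRingAut _ σ (genF _ d)) =
        arithmeticRingAut _ σ (wEquiv q M hqM (genF _ d))
      rw [hfix, wEquiv_gen, hfix]
  exact DFunLike.congr_fun h x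

end Fermat.Agent.Semistable

end
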