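import Fermat.Agent.Semistable.LocalTheory
import Fermat.Agent.FiniteFlat.Instance
import Fermat.Agent.GaloisReps.UnipotentModel

/-!
# Inertia at a prime exactly dividing the level is unipotent on the torsion prime to it

The genus does not change under reduction at the primes not dividing the level, so the theory of
level `q M` applies to all `M` prime to `q`.
-/

set_option autoImplicit false

noncomputable section

namespace Fermat.Agent.Semistable

open ModularCurve AlgebraicCurve
open Arith (QBar GQ)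
open JacTorsion (divGrp toTorsion toTorsion_surjective divQuot)

attribute [local instance 10] IntermediateField.algebra'

variable {A : ValuationSubring QBar} {q M : ℕ} [NeZero M]

omit [NeZero M] in
theorem natCast_res_ne_zero (hA : A.LiesOverPrime q) (hq : q.Prime) (hqM : ¬ q ∣ M) :
    (M : Res A) ≠ 0 := by
  have : CharP (Res A) q := Arith.residueField_charP hA hq
  exact fun h => hqM ((CharP.cast_eq_zero_iff (Res A) q M).mp h)

/-- Every level prime to `q` is good. -/
theorem goodM (hM : (M : Res A) ≠ 0) : GoodM A M :=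
  (FiniteFlat.genusFF_residue_eq hM).ge

/-- The standing hypotheses hold at every place over `q`. -/
theorem setup (hA : A.LiesOverPrime q) (hq : q.Prime) (hqM : ¬ q ∣ M) : Setup A M q :=
  ⟨hA, hqM, natCast_res_ne_zero hA hq hqM, goodM (natCast_res_ne_zero hA hq hqM)⟩

variable [hq : Fact q.Prime]

omit [NeZero M] hq in
theorem galois_smul_mk (σ : GQ) (D : Divisor.degZero (K := QBar) (F := FB (q * M))) :
    ∃ D' : Divisor.degZero (K := QBar) (F := FB (q * M)),
      σ • (Pic0.mk D : JZero (q * M)) = Pic0.mk D' ∧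
        (D' : Divisor QBar (FB (q * M))) = galD σ D :=
  ⟨_, SemilinearAut.pic0_smul_mk _ D, rfl⟩

/-- **Inertia at `q` is unipotent of level two** on the torsion of order prime to `q` of
`J₀(q M)`, `q ∤ M`. -/
theorem inertia_sq_smul (hqM : ¬ q ∣ M) (hA : A.LiesOverPrime q) {σ : GQ}
    (hσ : σ ∈ A.inertiaSubgroupIn ℚ) {m : ℕ} (hmq : ¬ q ∣ m) {x : JZero (q * M)}
    (hx : m • x = 0) : σ • (σ • x - x) - (σ • x - x) = 0 := by
  have : CharP (Res A) q := Arith.residueField_charP hA hq.out
  have : FF.IsFunctionField (Res A) (KM A M) :=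
    isFunctionField_KM A (natCast_res_ne_zero hA hq.out hqM)
  have hm : m ≠ 0 := fun h => hmq (h ▸ dvd_zero q)
  have h := setup hA hq.out hqM
  obtain ⟨D, rfl⟩ := Pic0.mk_surjective x
  have hP := (QuotientAddGroup.eq_zero_iff (m • D)).mp hx
  rw [AddSubgroup.mem_addSubgroupOf, AddSubgroup.coe_nsmul] at hP
  obtain ⟨f, hf, hord⟩ := hP
  have hord' : ∀ v, v.ord f = (m : ℤ) * (D : Divisor QBar (FB (q * M))) v := fun v => by
    rw [← hord v, Finsupp.smul_apply, nsmul_eq_mul]
  obtain ⟨D', hD', eD'⟩ := galois_smul_mk σ D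
  have e1 : σ • (Pic0.mk D : JZero (q * M)) - Pic0.mk D = Pic0.mk (D' - D) := by rw [hD']; rfl
  obtain ⟨D'', hD'', eD''⟩ := galois_smul_mk σ (D' - D)
  rw [e1, hD'']
  refine (QuotientAddGroup.eq_zero_iff (D'' - (D' - D))).mpr ?_
  rw [AddSubgroup.mem_addSubgroupOf, AddSubgroup.coe_sub, eD'', AddSubgroup.coe_sub, eD']
  exact h.inertia_sq_principal hσ hm hmq hf hord'

/-- Inertia is unipotent of level two at any level with `q` exactly dividing it. -/
theorem inertia_sq_smul_of_dvd {N : ℕ} [NeZero N] (hqN : q ∣ N) (hq2 : ¬ q ^ 2 ∣ N)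
    (hA : A.LiesOverPrime q) {σ : GQ} (hσ : σ ∈ A.inertiaSubgroupIn ℚ) {m : ℕ} (hmq : ¬ q ∣ m)
    {x : JZero N} (hx : m • x = 0) : σ • (σ • x - x) - (σ • x - x) = 0 := by
  obtain ⟨M, rfl⟩ := hqN
  have : NeZero M := ⟨fun h => NeZero.ne (q * M) (by rw [h, mul_zero])⟩
  exact inertia_sq_smul (fun h => hq2 (by rw [sq]; exact mul_dvd_mul_left q h)) hA hσ hmq hx

omit [NeZero M] hq in
/-- The hypothesis of the model computation. -/
theorem torsionUnipotentAt {N : ℕ} [NeZero N] (hq : q.Prime) (hqN : q ∣ N) (hq2 : ¬ q ^ 2 ∣ N) :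
    GaloisReps.TorsionUnipotentAt N q := by
  have := Fact.mk hq
  refine ⟨1, one_pos, fun m _ hmq A hA τ hτ x hx => ?_⟩
  rw [one_smul]
  exact inertia_sq_smul_of_dvd hqN hq2 hA hτ hmq hx

end Fermat.Agent.Semistable

end
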