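import Fermat.Agent.Semistable.Torsion
import Fermat.Agent.GaloisReps.Relations
import Fermat.Agent.Mazur.Eisenstein.Inputs
import Fermat.Prelude.Def_GaloisRep_LocalConditions

/-!
# Inertia at a prime exactly dividing the level is unipotent in every Hecke–Galois datum

If `(τ - 1) ^ 2 = 0` on the model and `τ` fixes the roots of unity, the matching operator of `τ` is
`τ + τ⁻¹ = 2`, so the trace of `τ` in a datum is `2`; the same for `τ ^ 2` gives determinant `1`.
-/

set_option autoImplicit false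

noncomputable section

open Polynomial Module
open Fermat.Agent.GaloisReps

namespace Fermat.Agent.Semistable

/-- The hypothesis of the Eisenstein descent. -/
theorem semistableProperty {N : ℕ} [NeZero N] {q : ℕ} (hq : q.Prime) (hqN : q ∣ N)
    (hq2 : ¬ q ^ 2 ∣ N) : Mazur.Eisenstein.SemistableProperty N q := fun A hA σ hσ m x hm hx => by
  have := Fact.mk hq
  exact inertia_sq_smul_of_dvd hqN hq2 hA hσ hm hx

variable {p : ℕ} [Fact p.Prime] {N : ℕ} [NeZero N] {S : Finset ℕ}
  {T : Type} [CommRing T] [IsLocalRing T] [IsNoetherianRing T]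

/-- An element fixing the roots of unity which is unipotent of level two on the model has trace
`2` in every representation matched by the model. -/
theorem trace_eq_two (D : HeckeGaloisModel N p) (ρ : GaloisRepAdic T)
    (hpT : (p : T) ∈ IsLocalRing.maximalIdeal T)
    (π : CuspForm.heckeAlgebra N 2 (↑S : Set ℕ) →+* T) (hfrob : FrobCharpoly ρ π)
    {g : AbsGal} (hg : (D.gal g - 1) ^ 2 = 0)
    (hfix : ∀ (n : ℕ) (ζ : AlgebraicClosure ℚ), ζ ^ (p ^ n) = 1 → g ζ = ζ) :
    LinearMap.trace T ρ.V (ρ.ρ g) = 2 := by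
  obtain ⟨k, hsat⟩ := exists_saturation_of D hpT π
  refine sub_eq_zero.mp ((Submodule.mem_bot T).mp ?_)
  rw [← Ideal.iInf_pow_eq_bot_of_isLocalRing _ (IsLocalRing.maximalIdeal.isMaximal T).ne_top,
    Submodule.mem_iInf]
  intro n
  have : NeZero (p ^ (n + k)) := ⟨pow_ne_zero _ (Fact.out : p.Prime).ne_zero⟩
  obtain ⟨ζ, hζ⟩ := exists_primitiveRoot (p ^ (n + k))
  obtain ⟨t, ht, htr⟩ := exists_heckeLevel_eq D ρ π hfrob hζ g
  set χ := hζ.autToPow ℚ g with hχ
  have hχ1 : (χ : ZMod (p ^ (n + k))) = 1 := by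
    have h2 : ζ ^ (χ : ZMod (p ^ (n + k))).val = ζ ^ 1 := by
      rw [hζ.autToPow_spec ℚ g, pow_one]
      exact hfix (n + k) ζ hζ.pow_eq_one
    have := (hζ.isOfFinOrder (NeZero.ne _)).pow_eq_pow_iff_modEq.mp h2
    rw [← hζ.eq_orderOf, ← ZMod.natCast_eq_natCast_iff] at this
    rwa [ZMod.natCast_val, ZMod.cast_id', id_eq, Nat.cast_one] at this
  rw [hχ1, one_smul] at ht
  have hsq : (galLevel D (n + k) g - 1) * (galLevel D (n + k) g - 1) = 0 := by
    rw [galLevel_apply, ← map_one (PadicInt.toZModPow (p := p) (n + k)).mapMatrix, ← map_sub,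
      ← map_mul, ← pow_two, hg, map_zero]
  have h2 : galLevel D (n + k) g + galLevel D (n + k) g⁻¹ = 2 := by
    have e := congrArg (· * galLevel D (n + k) g⁻¹) hsq
    simp only [zero_mul, sub_mul, mul_sub, one_mul, mul_one] at e
    rw [mul_assoc, galLevel_mul_inv, mul_one] at e
    rw [← one_add_one_eq_two, ← sub_eq_zero]
    calc galLevel D (n + k) g + galLevel D (n + k) g⁻¹ - (1 + 1)
        = galLevel D (n + k) g - 1 - (1 - galLevel D (n + k) g⁻¹) := by abel
      _ = 0 := e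
  rw [h2] at ht
  have hzero : heckeLevel D (n + k) (t - 2) = 0 := by
    rw [map_sub, ht, map_ofNat, sub_self]
  have hπ := hsat n _ hzero
  rw [map_sub, map_ofNat] at hπ
  have := Ideal.add_mem _ (Ideal.pow_le_pow_right (Nat.le_add_right n k) htr) hπ
  rwa [sub_add_sub_cancel] at this

omit [IsNoetherianRing T] in
/-- In rank two, `tr M ^ 2 - tr (M ^ 2) = 2 det M`. -/
theorem trace_sq_sub (ρ : GaloisRepAdic T) (g : AbsGal) :
    LinearMap.trace T ρ.V (ρ.ρ g) ^ 2 - LinearMap.trace T ρ.V (ρ.ρ (g * g)) =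
      2 * LinearMap.det (ρ.ρ g) := by
  classical
  let b := Module.finBasisOfFinrankEq T ρ.V ρ.finrank_eq
  rw [map_mul, LinearMap.trace_eq_matrix_trace T b, LinearMap.trace_eq_matrix_trace T b,
    LinearMap.toMatrix_mul, ← LinearMap.det_toMatrix b, Matrix.trace_fin_two, Matrix.trace_fin_two,
    Matrix.det_fin_two, Matrix.mul_apply, Matrix.mul_apply, Fin.sum_univ_two, Fin.sum_univ_two]
  ring

omit [IsNoetherianRing T] in
theorem charpoly_eq_sq (ρ : GaloisRepAdic T) (g : AbsGal)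
    (htr : LinearMap.trace T ρ.V (ρ.ρ g) = 2) (hdet : LinearMap.det (ρ.ρ g) = 1) :
    LinearMap.charpoly (ρ.ρ g) = (X - 1) ^ 2 := by
  classical
  let b := Module.finBasisOfFinrankEq T ρ.V ρ.finrank_eq
  rw [LinearMap.trace_eq_matrix_trace T b] at htr
  rw [← LinearMap.det_toMatrix b] at hdet
  rw [← LinearMap.charpoly_toMatrix (ρ.ρ g) b, Matrix.charpoly_fin_two, htr, hdet,
    map_ofNat, map_one]
  ring

variable {O : Type} [CommRing O] [IsDomain O] [IsDiscreteValuationRing O]
  [IsAdicComplete (IsLocalRing.maximalIdeal O) O] [CharZero O]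
  {θ : CuspForm.heckeAlgebra N 2 (↑S : Set ℕ) →+* IsLocalRing.ResidueField O}
  [IsAdicComplete (IsLocalRing.maximalIdeal T) T] [Algebra O T] [IsLocalHom (algebraMap O T)]
  [Module.Finite O T] [Module.Free O T]

/-- **S34**, given the congruences. -/
theorem isUnipotentOnInertiaAt (hES : CongruenceProperty N p)
    (hpO : (p : O) ∈ IsLocalRing.maximalIdeal O)
    (H : CuspForm.HeckeGaloisRepDatum N (↑S : Set ℕ) O θ T)
    {q : ℕ} (hq : q.Prime) (hqp : q ≠ p) (hqN : q ∣ N) (hq2 : ¬ q ^ 2 ∣ N) :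
    H.ρ.IsUnipotentOnInertiaAt q := by
  intro P hP σ hσ
  have hpT : (p : T) ∈ IsLocalRing.maximalIdeal T := by
    rw [← map_natCast (algebraMap O T) p]; exact map_nonunit (algebraMap O T) _ hpO
  have hU := unipotentAt_modelOfCongruence hES hq hqp (torsionUnipotentAt hq hqN hq2)
  have htrace : ∀ τ ∈ P.inertiaSubgroupIn ℚ, LinearMap.trace T H.ρ.V (H.ρ.ρ τ) = 2 := by
    intro τ hτ
    refine trace_eq_two _ H.ρ hpT H.π H.charpoly_frob (hU P hP τ hτ) fun n ζ hζ => ?_
    exact Arith.inertia_root hP hq hτ hζ fun h =>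
      hqp ((Nat.prime_dvd_prime_iff_eq hq Fact.out).1 (hq.dvd_of_dvd_pow h))
  have h2 : (2 : T) * LinearMap.det (H.ρ.ρ σ) = 2 * 1 := by
    rw [← trace_sq_sub, htrace σ hσ, htrace _ (mul_mem hσ hσ)]
    norm_num
  refine charpoly_eq_sq H.ρ σ (htrace σ hσ) (sub_eq_zero.mp ?_)
  have h3 : (2 : O) • (LinearMap.det (H.ρ.ρ σ) - 1) = 0 := by
    rw [Algebra.smul_def, map_ofNat, mul_sub, h2, sub_self]
  have : Module.IsTorsionFree O T := inferInstance
  exact (smul_eq_zero.mp h3).resolve_left two_ne_zero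

end Fermat.Agent.Semistable

end
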