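import Mathlib
import Fermat.Agent.Semistable.SeriesLemmas

/-!
# Subspaces of series stable under Frobenius on coefficients
-/

set_option autoImplicit false

noncomputable section

namespace Fermat.Agent.Semistable

open ModularCurve

/-- A finite-dimensional space of series stable under the coefficient Frobenius is spanned by its
elements `x` with `x ^ q = x(q ^ q)`. -/
theorem le_span_fixed {k : Type*} [Field k] (q : ℕ) [Fact q.Prime] [CharP k q]
    (V : Submodule k (LaurentSeries k)) [FiniteDimensional k V]
    (h : ∀ x ∈ V, coeffMap (frobenius k q) x ∈ V) :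
    V ≤ Submodule.span k {x | x ∈ V ∧ x ^ q = qExpand k q x} := by
  classical
  let f : ℤ → Module.Dual k V := fun n =>
    { toFun := fun x => (x : LaurentSeries k).coeff n
      map_add' := fun x y => by simp
      map_smul' := fun c x => by simp }
  have htop : Submodule.span k (Set.range f) = ⊤ := by
    have : (Submodule.span k (Set.range f)).dualCoannihilator = ⊥ := (Submodule.eq_bot_iff _).mpr
      fun v hv => Subtype.ext (HahnSeries.ext (funext fun n =>
        (Submodule.mem_dualCoannihilator v).mp hv _ (Submodule.subset_span ⟨n, rfl⟩)))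
    rw [← Subspace.dualCoannihilator_dualAnnihilator_eq (W := Submodule.span k (Set.range f)),
      this, Submodule.dualAnnihilator_bot]
  obtain ⟨b, hb, hspan, hli⟩ := exists_linearIndependent k (Set.range f)
  rw [htop] at hspan
  have : Finite b := hli.finite
  have := Fintype.ofFinite b
  let B : Module.Basis b k (Module.Dual k V) :=
    Module.Basis.mk hli (by rw [Subtype.range_coe, hspan])
  let e : V ≃ₗ[k] (b → k) :=
    (Module.evalEquiv k V).trans ((B.constr k).symm : Module.Dual k (Module.Dual k V) ≃ₗ[k] (b → k))
  have he : ∀ x i, e x i = (i : Module.Dual k V) x := fun x i => by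
    simp [e, B, Module.Basis.constr]
  intro x hx
  have key : ∀ i : b, ∃ u : V, e u = Pi.single i 1 ∧
      (u : LaurentSeries k) ^ q = qExpand k q (u : LaurentSeries k) := by
    intro i
    obtain ⟨u, hu⟩ := e.surjective (Pi.single i 1)
    refine ⟨u, hu, pow_char_eq_qExpand_of_fixed q fun n => ?_⟩
    have hfix : (⟨_, h u u.2⟩ : V) = u := e.injective (by
      funext j
      obtain ⟨n, hn⟩ := hb j.2
      have h1 : ∀ w : V, e w j = (w : LaurentSeries k).coeff n := fun w => by
        rw [he, ← hn]; rfl
      have h2 : (u : LaurentSeries k).coeff n = (Pi.single i 1 : b → k) j := by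
        rw [← h1, hu]
      rw [h1, h1, coeffMap_coeff, frobenius_def, h2]
      rcases eq_or_ne j i with rfl | hji
      · simp
      · simp [hji, zero_pow (Fact.out : q.Prime).ne_zero])
    have := congrArg (fun w : V => (w : LaurentSeries k).coeff n) hfix
    simpa [frobenius_def] using this
  choose u hu hfix using key
  have hxe : (⟨x, hx⟩ : V) = ∑ i, e ⟨x, hx⟩ i • u i := e.injective (by
    rw [map_sum]
    simp only [map_smul, hu]
    funext j
    simp [Finset.sum_apply, Pi.single_apply])
  have hx' : x = ((∑ i, e ⟨x, hx⟩ i • u i : V) : LaurentSeries k) := congrArg Subtype.val hxe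
  rw [hx', Submodule.coe_sum]
  exact Submodule.sum_mem _ fun i _ =>
    Submodule.smul_mem _ _ (Submodule.subset_span ⟨(u i).2, hfix i⟩)

end Fermat.Agent.Semistable

end
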