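import Mathlib
import Fermat.Agent.Igusa.GoodBasis
import Fermat.Agent.Semistable.Levels
import Fermat.Agent.Semistable.ModRel
import Fermat.Agent.Igusa.Degree

/-!
# Gauss bases at levels `M` and `q M`

At level `q M` a Gauss basis reduces into the product of two copies of the function field of level
`M` over the residue field.
-/

set_option autoImplicit false

noncomputable section

namespace Fermat.Agent.Semistable

open ModularCurve Polynomial IntermediateField
open Arith (QBar)

attribute [local instance 2000] HahnSeries.powerSeriesAlgebra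
attribute [local instance 10] IntermediateField.algebra'

variable {A : ValuationSubring QBar}

/-! ### Generalities -/

theorem transcendental_qExpand {K : Type*} [Field K] (d : ℕ) [NeZero d] {x : LaurentSeries K}
    (hx : Transcendental K x) : Transcendental K (qExpand K d x) :=
  transcendental_iff.mpr fun p hp => by
    rw [← map_aevalPoly _ (qExpand_const d), ← (qExpand K d).map_zero] at hp
    exact transcendental_iff.mp hx p (qExpand_injective d hp)

theorem adjoin_inv_simple {K F : Type*} [Field K] [Field F] [Algebra K F] (t : F) :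
    K⟮t⁻¹⟯ = K⟮t⟯ := by
  apply le_antisymm <;> rw [adjoin_simple_le_iff]
  · exact inv_mem (mem_adjoin_simple_self K t)
  · have := inv_mem (mem_adjoin_simple_self K t⁻¹)
    rwa [inv_inv] at this

theorem inv_mem_loc2 {F : Type*} [Field F] [Algebra QBar F] {S : Type*}
    (ι : S → (F →ₐ[QBar] LSer)) (x : loc2 A ι) (h : ∀ s, red2 A ι x s ≠ 0) :
    ∃ h' : (x : F)⁻¹ ∈ loc2 A ι, ∀ s, red2 A ι ⟨_, h'⟩ s = (red2 A ι x s)⁻¹ := by
  have hx : ∀ s, (ι s (x : F))⁻¹ ∈ locS A := fun s =>
    (inv_mem_locS ((mem_loc2 ι).mp x.2 s) (h s)).1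
  have h' : (x : F)⁻¹ ∈ loc2 A ι := (mem_loc2 ι).mpr fun s => by rw [map_inv₀]; exact hx s
  refine ⟨h', fun s => ?_⟩
  rw [red2_apply, red2_apply, redL_congr _ (hx s) (map_inv₀ (ι s) (x : F))]
  exact (inv_mem_locS ((mem_loc2 ι).mp x.2 s) (h s)).2

/-! ### Level `M` -/

variable (M : ℕ) [NeZero M]

/-- `j` at level `M`. -/
def jM : FB M := genF M ⟨1, one_dvd M⟩

theorem coe_jM : (jM M : LSer) = jqModC QBar := qExpand_one_apply _

theorem jM_mem : jM M ∈ loc2 A (iota1 M) := genF_mem_loc1 M _

theorem red1_jM : red1 A M ⟨jM M, jM_mem M⟩ = jqModC (Res A) :=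
  (red1_genF M ⟨1, one_dvd M⟩).trans (qExpand_one_apply _)

theorem finrank_jM :
    FiniteDimensional QBar⟮jM M⟯ (FB M) ∧ Module.finrank QBar⟮jM M⟯ (FB M) = dedekindPsi M := by
  have e : ModFun.jBase M QBar = jM M := Subtype.ext (by rw [ModFun.coe_jBase, coe_jM])
  rw [← e]
  exact ModFun.finrank_baseChange M QBar

/-- The function field of level `M` over the residue field. -/
abbrev KM (A : ValuationSubring QBar) (M : ℕ) : IntermediateField (Res A) (LaurentSeries (Res A)) :=
  modularFunctionFieldFullC (Res A) M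

/-- A series with integer coefficients lying in the function field of level `M`. -/
def IsRat {M : ℕ} (x : FB M) : Prop :=
  ∃ y : LaurentSeries ℤ, coeffMap (Int.castRingHom QBar) y = (x : LSer)

/-- Products of generators lift. -/
theorem exists_lift_monomial {z : LaurentSeries (Res A)}
    (hz : z ∈ Submonoid.closure (divisorExpansionsC (Res A) M)) :
    ∃ x : loc2 A (iota1 M), IsRat (x : FB M) ∧ red1 A M x = z := by
  induction hz using Submonoid.closure_induction with
  | mem z hz =>
    obtain ⟨d, hd, hdM, rfl⟩ := hz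
    refine ⟨⟨genF M ⟨d, hdM⟩, genF_mem_loc1 M _⟩, ⟨qExpand ℤ d (jqModC ℤ), ?_⟩, red1_genF M _⟩
    rw [coeffMap_qExpand, coeffMap_jqModC]
    rfl
  | one => exact ⟨1, ⟨1, map_one _⟩, map_one _⟩
  | mul a b _ _ ha hb =>
    obtain ⟨x, ⟨y, hy⟩, hx⟩ := ha
    obtain ⟨x', ⟨y', hy'⟩, hx'⟩ := hb
    refine ⟨x * x', ⟨y * y', ?_⟩, by rw [map_mul, hx, hx']⟩
    rw [map_mul, hy, hy']
    rfl

/-- A family of rational elements whose reductions form a basis over `k(j)`. -/
theorem exists_rat_family (hM : (M : Res A) ≠ 0) :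
    ∃ e : Fin (dedekindPsi M) → loc2 A (iota1 M), (∀ i, IsRat (e i : FB M)) ∧
      (∀ i, red1 A M (e i) ∈ KM A M) ∧
      Igusa.PolyIndep (jqModC (Res A)) (fun i => red1 A M (e i)) := by
  obtain ⟨x, hx, hxE, hind⟩ := Igusa.exists_family_closure
    (Igusa.natCard_coset M ▸ Igusa.hasFullDegree M (Res A) hM)
  choose y hy hyred using fun i => exists_lift_monomial M (hx i)
  exact ⟨y, hy, fun i => hyred i ▸ (Igusa.mem_fullOverLine_iff (Res A) M).mp (hxE i),
    by simpa only [hyred] using hind⟩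

/-- The rational family. -/
def ratFam (hM : (M : Res A) ≠ 0) : Fin (dedekindPsi M) → loc2 A (iota1 M) :=
  (exists_rat_family M hM).choose

theorem ratFam_mem (hM : (M : Res A) ≠ 0) (i) : red1 A M (ratFam M hM i) ∈ KM A M :=
  (exists_rat_family M hM).choose_spec.2.1 i

theorem ratFam_indep (hM : (M : Res A) ≠ 0) :
    Igusa.PolyIndep (jqModC (Res A)) (fun i => red1 A M (ratFam M hM i)) :=
  (exists_rat_family M hM).choose_spec.2.2

theorem dedekindPsi_pos : 0 < dedekindPsi M := by
  rw [← ModFun.natCard_coset M]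
  exact Nat.card_pos

instance : Nonempty (Fin (dedekindPsi M)) := ⟨⟨0, dedekindPsi_pos M⟩⟩

omit [NeZero M] in
theorem red1_evA (t : loc2 A (iota1 M)) (P : (A : Type)[X]) :
    red1 A M (evA (iota1 M) t P) = aeval (red1 A M t) (P.map (IsLocalRing.residue A)) :=
  red2_evA (iota1 M) t P ()

theorem redIndep_level {t : loc2 A (iota1 M)} (hM : (M : Res A) ≠ 0)
    (hind : Igusa.PolyIndep (red1 A M t) (fun i => red1 A M (ratFam M hM i))) :
    RedIndep (iota1 M) t (ratFam M hM) := by
  intro P hP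
  exact congrFun (Igusa.polyIndep_iff.mp hind P (hP ()))

theorem redIndep_jM (hM : (M : Res A) ≠ 0) :
    RedIndep (iota1 M) (⟨jM M, jM_mem M⟩ : loc2 A (iota1 M)) (ratFam M hM) :=
  redIndep_level M hM (by rw [red1_jM]; exact ratFam_indep M hM)

omit [NeZero M] in
theorem aeval_mem_KM {z : LaurentSeries (Res A)} (hz : z ∈ KM A M) (p : (Res A)[X]) :
    aeval z p ∈ KM A M := by
  rw [aeval_eq_sum_range]
  exact sum_mem fun i _ => (KM A M).smul_mem (pow_mem hz i)

theorem red1_mem_KM (hM : (M : Res A) ≠ 0) (x : loc2 A (iota1 M)) : red1 A M x ∈ KM A M := by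
  set t : loc2 A (iota1 M) := ⟨jM M, jM_mem M⟩
  obtain ⟨Q, P, hQ, h⟩ := (redIndep_jM M hM).exists_coords_int (finrank_jM M).1
    (by rw [(finrank_jM M).2, Fintype.card_fin]) x
  have hne : red1 A M (evA (iota1 M) t Q) ≠ 0 := by
    rw [red1_evA, red1_jM]
    exact fun h => hQ (transcendental_iff.mp (Igusa.transcendental_jqModC _) _ h)
  have hjk : jqModC (Res A) ∈ KM A M := jqModC_mem_full (Res A) M
  have h' := congrArg (red1 A M) h
  rw [map_mul, mul_comm, ← eq_div_iff hne, map_sum] at h'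
  rw [h']
  refine div_mem (sum_mem fun i _ => ?_) ?_
  · rw [map_mul, red1_evA, red1_jM]
    exact mul_mem (aeval_mem_KM M hjk _) (ratFam_mem M hM i)
  · rw [red1_evA, red1_jM]
    exact aeval_mem_KM M hjk _

/-- Functions in `locS` are quotients of functions with integral series. -/
theorem exists_int_frac (hM : (M : Res A) ≠ 0) {x : FB M} (hx : (x : LSer) ∈ locS A) :
    ∃ a b : intS A, (a : LSer) ∈ FB M ∧ (b : LSer) ∈ FB M ∧ red A b ≠ 0 ∧
      (x : LSer) * b = a := by
  set t : loc2 A (iota1 M) := ⟨jM M, jM_mem M⟩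
  obtain ⟨Q, P, hQ, h⟩ := (redIndep_jM M hM).exists_coords_int (finrank_jM M).1
    (by rw [(finrank_jM M).2, Fintype.card_fin]) ⟨x, (mem_loc1 M).mpr hx⟩
  have hint : ∀ R, ((evA (iota1 M) t R).1 : LSer) ∈ intS A := fun R => by
    induction R using Polynomial.induction_on' with
    | add R S hR hS => rw [map_add]; exact add_mem hR hS
    | monomial n a =>
      rw [evA, coe_eval₂RingHom, eval₂_monomial]
      exact mul_mem (algebraMap_mem_intS a.2) (pow_mem ((coe_jM M).symm ▸ jqModC_mem_intS) n)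
  refine ⟨⟨((∑ i, evA (iota1 M) t (P i) * ratFam M hM i : loc2 A (iota1 M)).1 : LSer), ?_⟩,
    ⟨_, hint Q⟩, SetLike.coe_mem _, SetLike.coe_mem _, fun h0 => hQ ?_, ?_⟩
  · push_cast
    refine sum_mem fun i _ => mul_mem (hint _) ?_
    obtain ⟨y, hy⟩ : IsRat (ratFam M hM i : FB M) := (exists_rat_family M hM).choose_spec.1 i
    exact hy ▸ coeffMap_intCast_mem_intS y
  · refine transcendental_iff.mp (Igusa.transcendental_jqModC _) _ ?_
    rw [← red1_jM M, ← red1_evA M, red1_eq]
    exact (redL_of_mem_intS ⟨_, hint Q⟩).trans h0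
  · exact (mul_comm _ _).trans (congrArg (fun z : loc2 A (iota1 M) => ((z : FB M) : LSer)) h)

theorem pow_eq_qExpand_gen_one (q : ℕ) [Fact q.Prime] [CharP (Res A) q] :
    jqModC (Res A) ^ q = qExpand (Res A) q (jqModC (Res A)) :=
  pow_char_eq_qExpand_of_fixed q fun n => by
    rw [coeff_jqModC_eq_intCast, ← frobenius_def, map_intCast]

/-! ### Level `q M` -/

variable (q : ℕ) [hq : Fact q.Prime] (hqM : ¬ q ∣ M)

/-- Elements with reductions `(1, 0)` and `(0, 1)`. -/
theorem exists_idem [CharP (Res A) q] :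
    ∃ e₀ e₁ : loc2 A (iota2 M q hqM),
      red2 A (iota2 M q hqM) e₀ = ![1, 0] ∧ red2 A (iota2 M q hqM) e₁ = ![0, 1] := by
  set tj : loc2 A (iota1 M) := ⟨jM M, jM_mem M⟩
  have hjk : red1 A M tj = jqModC (Res A) := red1_jM M
  set a' : loc2 A (iota2 M q hqM) :=
    ⟨_, upF_mem_loc2 M q hqM tj.2⟩ - (⟨_, downF_mem_loc2 M q hqM tj.2⟩) ^ q with ha'
  set u : loc2 A (iota2 M q hqM) := ⟨_, upF_mem_loc2 M q hqM (tj - tj ^ (q * q)).2⟩ with hu
  have hε : jqModC (Res A) - jqModC (Res A) ^ (q * q) ≠ 0 := by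
    intro h
    have h1 : (X - X ^ (q * q) : (Res A)[X]) = 0 :=
      transcendental_iff.mp (Igusa.transcendental_jqModC _) _ (by simpa using h)
    have h2 := congrArg (fun p => p.coeff 1) h1
    have hne : q * q ≠ 1 := fun e => hq.out.ne_one (Nat.eq_one_of_mul_eq_one_right e)
    simp only [coeff_sub, coeff_X_one, coeff_X_pow, if_neg hne.symm, sub_zero, coeff_zero] at h2
    exact one_ne_zero h2
  have hured : red2 A (iota2 M q hqM) u =
      ![jqModC (Res A) - jqModC (Res A) ^ (q * q),
        qExpand (Res A) q (jqModC (Res A) - jqModC (Res A) ^ (q * q))] := by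
    rw [hu, red2_upF M q hqM (tj - tj ^ (q * q))]
    simp only [map_sub, map_pow, hjk]
  obtain ⟨hinv, hinv'⟩ := inv_mem_loc2 (iota2 M q hqM) u (fun s => by
    rw [hured]
    fin_cases s
    · exact hε
    · exact fun h => hε (qExpand_injective q (by rw [map_zero]; exact h)))
  have ha0 : red2 A (iota2 M q hqM) a' 0 = jqModC (Res A) - jqModC (Res A) ^ (q * q) := by
    rw [ha', map_sub, map_pow, Pi.sub_apply, Pi.pow_apply, red2_upF, red2_downF, hjk]
    simp only [Matrix.cons_val_zero]
    rw [← pow_eq_qExpand_gen_one, ← pow_mul]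
  have ha1 : red2 A (iota2 M q hqM) a' 1 = 0 := by
    rw [ha', map_sub, map_pow, Pi.sub_apply, Pi.pow_apply, red2_upF, red2_downF, hjk]
    simp only [Matrix.cons_val_one, Matrix.cons_val_fin_one]
    rw [← pow_eq_qExpand_gen_one, sub_self]
  have h0 : red2 A (iota2 M q hqM) (a' * ⟨_, hinv⟩) = ![1, 0] := by
    funext s
    rw [map_mul, Pi.mul_apply, hinv' s, hured]
    fin_cases s
    · show red2 A (iota2 M q hqM) a' 0 * (jqModC (Res A) - jqModC (Res A) ^ (q * q))⁻¹ = 1
      rw [ha0, mul_inv_cancel₀ hε]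
    · show red2 A (iota2 M q hqM) a' 1 * _ = 0
      rw [ha1, zero_mul]
  refine ⟨a' * ⟨_, hinv⟩, 1 - a' * ⟨_, hinv⟩, h0, ?_⟩
  funext s
  rw [map_sub, map_one, h0]
  fin_cases s <;> simp

theorem finrank_level_mul :
    FiniteDimensional QBar⟮upF M q (jM M)⟯ (FB (q * M)) ∧
      Module.finrank QBar⟮upF M q (jM M)⟯ (FB (q * M)) = dedekindPsi (q * M) := by
  have e : ModFun.jBase (q * M) QBar = upF M q (jM M) :=
    Subtype.ext (by rw [ModFun.coe_jBase, coe_upF, coe_jM])
  rw [← e]
  exact ModFun.finrank_baseChange (q * M) QBar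

/-- A Gauss basis at level `q M`, for a parameter `t` from level `M`. -/
theorem exists_gauss_basis [CharP (Res A) q] (hM : (M : Res A) ≠ 0) {t : loc2 A (iota1 M)}
    (hind : Igusa.PolyIndep (red1 A M t) (fun i => red1 A M (ratFam M hM i)))
    (hfix : red1 A M t ^ q = qExpand (Res A) q (red1 A M t)) :
    ∃ e : Fin (dedekindPsi M) ⊕ Fin (dedekindPsi M) × Fin q → loc2 A (iota2 M q hqM),
      RedIndep (iota2 M q hqM) ⟨_, upF_mem_loc2 M q hqM t.2⟩ e ∧
      (∀ a s, red2 A (iota2 M q hqM) (e a) s = 0 ∨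
        ∃ i, ∃ l : ℕ, red2 A (iota2 M q hqM) (e a) s =
          red1 A M t ^ l * red1 A M (ratFam M hM i)) := by
  obtain ⟨e₀, e₁, h₀, h₁⟩ := exists_idem (A := A) M q hqM
  let e : Fin (dedekindPsi M) ⊕ Fin (dedekindPsi M) × Fin q → loc2 A (iota2 M q hqM) :=
    Sum.elim (fun i => e₀ * ⟨_, upF_mem_loc2 M q hqM (ratFam M hM i).2⟩)
      (fun il => e₁ * ⟨_, downF_mem_loc2 M q hqM (t ^ (il.2 : ℕ) * ratFam M hM il.1).2⟩)
  have hl : ∀ i, red2 A (iota2 M q hqM) (e (Sum.inl i)) = ![red1 A M (ratFam M hM i), 0] := by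
    intro i
    funext s
    simp only [e, Sum.elim_inl, map_mul, Pi.mul_apply, h₀, red2_upF]
    fin_cases s <;> simp
  have hr : ∀ il, red2 A (iota2 M q hqM) (e (Sum.inr il)) =
      ![0, red1 A M t ^ (il.2 : ℕ) * red1 A M (ratFam M hM il.1)] := by
    intro il
    funext s
    simp only [e, Sum.elim_inr]
    rw [map_mul, Pi.mul_apply, h₁, red2_downF M q hqM (t ^ (il.2 : ℕ) * ratFam M hM il.1)]
    fin_cases s <;> simp
  refine ⟨e, ?_, ?_⟩
  · intro P hP
    have h0 := hP 0
    have h1 := hP 1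
    simp only [Fintype.sum_sum_type, hl, hr, red2_upF, Matrix.cons_val_zero, Matrix.cons_val_one,
      Matrix.cons_val_fin_one, mul_zero, Finset.sum_const_zero, add_zero, zero_add] at h0 h1
    have hL : ∀ i, P (Sum.inl i) = 0 := congrFun
      (Igusa.polyIndep_iff.mp hind (fun i => P (Sum.inl i)) h0)
    -- the second side
    have hR : ∀ il : Fin (dedekindPsi M) × Fin q, P (Sum.inr il) = 0 := by
      let G : Fin (dedekindPsi M) → (Res A)[X] := fun i =>
        ∑ l : Fin q, expand (Res A) q (P (Sum.inr (i, l))) * X ^ (l : ℕ)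
      have hG : G = 0 := by
        refine Igusa.polyIndep_iff.mp hind G ?_
        rw [← h1, Fintype.sum_prod_type]
        refine Finset.sum_congr rfl fun i _ => ?_
        simp only [G, map_sum, Finset.sum_mul]
        refine Finset.sum_congr rfl fun l _ => ?_
        rw [map_mul, map_pow, aeval_X, expand_aeval, mul_assoc]
        rw [hfix, ← mul_assoc]
      rintro ⟨i, l⟩
      refine Polynomial.ext fun n => ?_
      have := congrArg (fun p : (Res A)[X] => p.coeff (q * n + l)) (congrFun hG i)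
      simp only [G, finsetSum_coeff, Pi.zero_apply, coeff_zero] at this
      rw [Finset.sum_eq_single l] at this
      · rw [coeff_mul_X_pow', if_pos (Nat.le_add_left _ _), Nat.add_sub_cancel,
          mul_comm, coeff_expand_mul hq.out.pos] at this
        simpa using this
      · intro l' _ hne
        rw [coeff_mul_X_pow']
        split_ifs with h
        · rw [coeff_expand hq.out.pos, if_neg]
          intro hdvd
          refine hne (Fin.ext ?_)
          obtain ⟨c, hc⟩ := hdvd
          have := l.2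
          have := l'.2
          rcases lt_trichotomy c n with h' | h' | h'
          · have : q * (c + 1) ≤ q * n := Nat.mul_le_mul_left q h'
            rw [Nat.mul_succ] at this
            omega
          · subst h'; omega
          · have : q * (n + 1) ≤ q * c := Nat.mul_le_mul_left q h'
            rw [Nat.mul_succ] at this
            omega
        · rfl
      · simp
    rintro (i | il)
    · exact hL i
    · exact hR il
  · rintro (i | il) s
    · rw [hl]
      fin_cases s
      · exact Or.inr ⟨i, 0, by simp⟩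
      · exact Or.inl rfl
    · rw [hr]
      fin_cases s
      · exact Or.inl rfl
      · exact Or.inr ⟨il.1, il.2, rfl⟩

/-! ### The two parameters `j` and `1 / j` -/

variable (A) in
/-- `t` is a parameter: it generates the same line as `j` and reduces well. -/
structure IsParam (t : loc2 A (iota1 M)) : Prop where
  indep : ∀ hM : (M : Res A) ≠ 0,
    Igusa.PolyIndep (red1 A M t) (fun i => red1 A M (ratFam M hM i))
  fixed : red1 A M t ^ q = qExpand (Res A) q (red1 A M t)
  transcendental : Transcendental (Res A) (red1 A M t)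
  line : QBar⟮(t : FB M)⟯ = QBar⟮jM M⟯
  line_up : QBar⟮upF M q (t : FB M)⟯ = QBar⟮upF M q (jM M)⟯

theorem isParam_jM [CharP (Res A) q] : IsParam A M q ⟨jM M, jM_mem M⟩ where
  indep hM := by rw [red1_jM]; exact ratFam_indep M hM
  fixed := by rw [red1_jM]; exact pow_eq_qExpand_gen_one q
  transcendental := by rw [red1_jM]; exact Igusa.transcendental_jqModC _
  line := rfl
  line_up := rfl

theorem jM_inv_mem : (jM M)⁻¹ ∈ loc2 A (iota1 M) :=
  (inv_mem_loc2 (iota1 M) ⟨jM M, jM_mem M⟩ (fun _ => by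
    show red1 A M ⟨jM M, jM_mem M⟩ ≠ 0
    rw [red1_jM]
    exact jqModC_ne_zero_of_nontrivial _)).1

theorem red1_jM_inv : red1 A M ⟨(jM M)⁻¹, jM_inv_mem M⟩ = (jqModC (Res A))⁻¹ := by
  have h : red1 A M ⟨jM M, jM_mem M⟩ ≠ 0 := by
    rw [red1_jM]; exact jqModC_ne_zero_of_nontrivial _
  obtain ⟨hm, h'⟩ := inv_mem_loc2 (iota1 M) ⟨jM M, jM_mem M⟩ (fun _ => h)
  exact (h' ()).trans (congrArg _ (red1_jM M))

theorem isParam_jM_inv [CharP (Res A) q] : IsParam A M q ⟨(jM M)⁻¹, jM_inv_mem M⟩ where
  indep hM := by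
    rw [red1_jM_inv, Igusa.polyIndep_iff_linearIndependent
      (Igusa.aeval_inv_injective Igusa.aeval_jqModC_injective), Igusa.adjoin_inv_eq]
    exact (Igusa.polyIndep_iff_linearIndependent Igusa.aeval_jqModC_injective).mp (ratFam_indep M hM)
  fixed := by rw [red1_jM_inv, inv_pow, map_inv₀, pow_eq_qExpand_gen_one]
  transcendental := by
    rw [red1_jM_inv]
    exact transcendental_iff_injective.mpr (Igusa.aeval_inv_injective Igusa.aeval_jqModC_injective)
  line := adjoin_inv_simple _
  line_up := by rw [map_inv₀]; exact adjoin_inv_simple _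

variable {q} in
/-- `t` at level `q M`. -/
abbrev upParam (t : loc2 A (iota1 M)) : loc2 A (iota2 M q hqM) :=
  ⟨_, upF_mem_loc2 M q hqM t.2⟩

theorem transcendental_red2_upParam {t : loc2 A (iota1 M)} (ht : IsParam A M q t) (s : Fin 2) :
    Transcendental (Res A) (red2 A (iota2 M q hqM) (upParam M hqM t) s) := by
  rw [red2_upF]
  fin_cases s
  · exact ht.transcendental
  · exact transcendental_qExpand q ht.transcendental

omit [NeZero M] in
include hqM in
theorem card_family : dedekindPsi (q * M) =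
    Fintype.card (Fin (dedekindPsi M) ⊕ Fin (dedekindPsi M) × Fin q) := by
  rw [Gamma0.dedekindPsi_mul_of_not_dvd hq.out hqM]
  simp only [Fintype.card_sum, Fintype.card_fin, Fintype.card_prod]
  ring

theorem exists_level_mul_data [CharP (Res A) q] (hM : (M : Res A) ≠ 0) {t : loc2 A (iota1 M)}
    (ht : IsParam A M q t) :
    ∃ e : Fin (dedekindPsi M) ⊕ Fin (dedekindPsi M) × Fin q → loc2 A (iota2 M q hqM),
      RedIndep (iota2 M q hqM) (upParam M hqM t) e ∧
      (∀ a s, red2 A (iota2 M q hqM) (e a) s ∈ KM A M) ∧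
      FiniteDimensional QBar⟮((upParam M hqM t : loc2 A (iota2 M q hqM)) : FB (q * M))⟯
        (FB (q * M)) ∧
      Module.finrank QBar⟮((upParam M hqM t : loc2 A (iota2 M q hqM)) : FB (q * M))⟯
        (FB (q * M)) = Fintype.card (Fin (dedekindPsi M) ⊕ Fin (dedekindPsi M) × Fin q) := by
  obtain ⟨e, he, hsh⟩ := exists_gauss_basis M q hqM hM (ht.indep hM) ht.fixed
  refine ⟨e, he, fun a s => ?_, ?_⟩
  · rcases hsh a s with h | ⟨i, l, h⟩
    · rw [h]; exact zero_mem _
    · rw [h]
      exact mul_mem (pow_mem (red1_mem_KM M hM t) l) (ratFam_mem M hM i)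
  · show FiniteDimensional QBar⟮upF M q (t : FB M)⟯ _ ∧ Module.finrank QBar⟮upF M q (t : FB M)⟯ _ = _
    rw [ht.line_up]
    exact ⟨(finrank_level_mul M q).1, (finrank_level_mul M q).2.trans (card_family M q hqM)⟩

theorem red2_mem_KM [CharP (Res A) q] (hM : (M : Res A) ≠ 0) (x : loc2 A (iota2 M q hqM))
    (s : Fin 2) : red2 A (iota2 M q hqM) x s ∈ KM A M := by
  have ht := isParam_jM (A := A) M q
  obtain ⟨e, he, hmem, hfin, hcard⟩ := exists_level_mul_data M q hqM hM ht
  obtain ⟨Q, P, hQ, h⟩ := he.exists_coords_int hfin hcard x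
  set t := upParam M hqM (⟨jM M, jM_mem M⟩ : loc2 A (iota1 M))
  have hne : red2 A (iota2 M q hqM) (evA (iota2 M q hqM) t Q) s ≠ 0 := by
    rw [red2_evA]
    exact fun h => hQ (transcendental_iff.mp (transcendental_red2_upParam M q hqM ht s) _ h)
  have hmemt : red2 A (iota2 M q hqM) t s ∈ KM A M := by
    rw [red2_upF, red1_jM]
    fin_cases s
    · exact jqModC_mem_full (Res A) M
    · show qExpand (Res A) q (jqModC (Res A)) ∈ _
      rw [← pow_eq_qExpand_gen_one]
      exact pow_mem (jqModC_mem_full (Res A) M) q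
  have h' := congrFun (congrArg (red2 A (iota2 M q hqM)) h) s
  rw [map_mul, map_sum, Pi.mul_apply, Finset.sum_apply, mul_comm, ← eq_div_iff hne] at h'
  rw [h']
  refine div_mem (sum_mem fun a _ => ?_) ?_
  · rw [map_mul, Pi.mul_apply, red2_evA]
    exact mul_mem (aeval_mem_KM M hmemt _) (hmem a s)
  · rw [red2_evA]
    exact aeval_mem_KM M hmemt _

/-- Reductions of integral elements which are integral over `QBar[t]` are integral over the
reduction of `t`. -/
theorem red2_integral [CharP (Res A) q] (hA : A.LiesOverPrime q) (hM : (M : Res A) ≠ 0)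
    {t : loc2 A (iota1 M)} (ht : IsParam A M q t) {x : loc2 A (iota2 M q hqM)}
    (hx : IsIntegral (Algebra.adjoin QBar {upF M q (t : FB M)}) (x : FB (q * M))) (s : Fin 2) :
    ∃ R : (Res A)[X][X], R.Monic ∧
      eval₂ (aeval (red2 A (iota2 M q hqM) (upParam M hqM t) s)).toRingHom
        (red2 A (iota2 M q hqM) x s) R = 0 := by
  obtain ⟨e, he, -, hfin, hcard⟩ := exists_level_mul_data M q hqM hM ht
  obtain ⟨R, hR, hRx⟩ := he.exists_monic_rel hA hq.out (iota2_fracS M q hqM)
    (transcendental_red2_upParam M q hqM ht) hfin hcard hx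
  refine ⟨R.map (mapRingHom (IsLocalRing.residue A)), hR.map _, ?_⟩
  have h := congrArg ((Pi.evalRingHom (fun _ : Fin 2 => LaurentSeries (Res A)) s).comp
    (red2 A (iota2 M q hqM))) hRx
  rw [map_zero, hom_eval₂] at h
  rw [eval₂_map]
  refine Eq.trans ?_ h
  congr 1
  refine RingHom.ext fun P => ?_
  exact (red2_evA (iota2 M q hqM) (upParam M hqM t) P s).symm

/-- The same at level `M`. -/
theorem red1_integral (hA : A.LiesOverPrime q) (hM : (M : Res A) ≠ 0)
    {t : loc2 A (iota1 M)} (ht : IsParam A M q t) {x : loc2 A (iota1 M)}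
    (hx : IsIntegral (Algebra.adjoin QBar {(t : FB M)}) (x : FB M)) :
    ∃ R : (Res A)[X][X], R.Monic ∧
      eval₂ (aeval (red1 A M t)).toRingHom (red1 A M x) R = 0 := by
  have hfin : FiniteDimensional QBar⟮(t : FB M)⟯ (FB M) := by
    rw [ht.line]; exact (finrank_jM M).1
  have hcard : Module.finrank QBar⟮(t : FB M)⟯ (FB M) = Fintype.card (Fin (dedekindPsi M)) := by
    rw [ht.line, (finrank_jM M).2, Fintype.card_fin]
  obtain ⟨R, hR, hRx⟩ := (redIndep_level M hM (ht.indep hM)).exists_monic_rel hA hq.out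
    (fun _ => mem_fracS_of_mem) (fun _ => ht.transcendental) hfin hcard hx
  refine ⟨R.map (mapRingHom (IsLocalRing.residue A)), hR.map _, ?_⟩
  have h := congrArg (red1 A M) hRx
  rw [map_zero, hom_eval₂] at h
  rw [eval₂_map]
  refine Eq.trans ?_ h
  congr 1
  exact RingHom.ext fun P => (red1_evA M t P).symm

end Fermat.Agent.Semistable

end
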