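import Mathlib
import Fermat.Agent.RedTorsion.ReducedBasis
import Fermat.Agent.Semistable.Basis

/-!
# The action of decomposition elements on integral functions and their reductions
-/

set_option autoImplicit false

noncomputable section

namespace Fermat.Agent.Semistable

open ModularCurve AlgebraicCurve
open Arith (QBar)

attribute [local instance 2000] HahnSeries.powerSeriesAlgebra
attribute [local instance 10] IntermediateField.algebra'

variable {A : ValuationSubring QBar}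

/-- `σ` preserves `A` and induces `φ` on the residue field. -/
structure ResLift (A : ValuationSubring QBar) (σ : Arith.GQ) (φ : Res A →+* Res A) : Prop where
  mem : ∀ a ∈ A, σ a ∈ A
  residue_eq : ∀ (a : QBar) (ha : a ∈ A),
    IsLocalRing.residue A ⟨σ a, mem a ha⟩ = φ (IsLocalRing.residue A ⟨a, ha⟩)

theorem resLift_of_inertia {σ : Arith.GQ} (hσ : σ ∈ A.inertiaSubgroupIn ℚ) :
    ResLift A σ (RingHom.id _) := by
  obtain ⟨hA, h⟩ := Arith.mem_inertia_iff_forall_mem.mp hσ
  exact ⟨fun a ha => Arith.map_mem_of_mem_decomposition hA ha,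
    fun a ha => Arith.residue_eq_iff.mpr (h a ha)⟩

theorem resLift_of_frobenius {q : ℕ} [Fact q.Prime] [CharP (Res A) q] {σ : Arith.GQ}
    (hσ : A.IsFrobeniusAt σ q) : ResLift A σ (frobenius (Res A) q) := by
  obtain ⟨hA, h⟩ := Arith.isFrobeniusAt_iff_forall_mem.mp hσ
  refine ⟨fun a ha => Arith.map_mem_of_mem_decomposition hA ha, fun a ha => ?_⟩
  rw [frobenius_def, ← map_pow]
  exact Arith.residue_eq_iff.mpr (h a ha)

variable {σ : Arith.GQ} {φ : Res A →+* Res A}

theorem ResLift.coeffMap_mem (hσ : ResLift A σ φ) {x : LSer} (hx : x ∈ intS A) :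
    coeffMap (σ : QBar →+* QBar) x ∈ intS A := by
  obtain ⟨⟨L, hL, hxL⟩, hxA⟩ := mem_intS.mp hx
  refine mem_intS.mpr ⟨⟨L.map σ.toAlgHom,
    Module.Finite.equiv (IntermediateField.equivMap L σ.toAlgHom).toLinearEquiv, fun n => ?_⟩,
    fun n => ?_⟩
  · rw [coeffMap_coeff]
    exact ⟨_, hxL n, rfl⟩
  · rw [coeffMap_coeff]
    exact hσ.mem _ (hxA n)

theorem ResLift.red_coeffMap (hσ : ResLift A σ φ) (x : intS A) :
    red A ⟨_, hσ.coeffMap_mem x.2⟩ = coeffMap φ (red A x) := by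
  ext n
  rw [coeffMap_coeff, coeff_red, coeff_red]
  exact hσ.residue_eq _ _

theorem ResLift.redL_coeffMap (hσ : ResLift A σ φ) {x : LSer} (hx : x ∈ locS A) :
    ∃ h : coeffMap (σ : QBar →+* QBar) x ∈ locS A,
      redL A ⟨_, h⟩ = coeffMap φ (redL A ⟨x, hx⟩) := by
  obtain ⟨a, b, hb, hab⟩ := id hx
  have hb' : red A ⟨_, hσ.coeffMap_mem b.2⟩ ≠ 0 := by
    rw [hσ.red_coeffMap]
    intro h
    exact hb (coeffMap_injective φ (h.trans (map_zero _).symm))
  have e : coeffMap (σ : QBar →+* QBar) x * coeffMap (σ : QBar →+* QBar) b.1 =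
      coeffMap (σ : QBar →+* QBar) a.1 := by rw [← map_mul, hab]
  have h : coeffMap (σ : QBar →+* QBar) x ∈ locS A :=
    ⟨⟨_, hσ.coeffMap_mem a.2⟩, ⟨_, hσ.coeffMap_mem b.2⟩, hb', e⟩
  refine ⟨h, ?_⟩
  rw [redL_eq ⟨_, h⟩ (a := ⟨_, hσ.coeffMap_mem a.2⟩) (b := ⟨_, hσ.coeffMap_mem b.2⟩) hb' e,
    redL_eq ⟨x, hx⟩ hb hab, hσ.red_coeffMap, hσ.red_coeffMap, map_div₀]

/-! ### On the function fields -/

/-- The action of `σ` on the function field. -/
abbrev galF (N : ℕ) (σ : Arith.GQ) : FB N ≃+* FB N :=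
  arithmeticRingAut (modularFunctionFieldFull N) σ

theorem galF_jM (M : ℕ) [NeZero M] (σ : Arith.GQ) : galF M σ (jM M) = jM M :=
  Subtype.ext (by rw [coe_arithmeticRingAut, coe_jM, coeffMap_jqModC])

theorem galF_upF (M q : ℕ) [NeZero M] [Fact q.Prime] (σ : Arith.GQ) (x : FB M) :
    galF (q * M) σ (upF M q x) = upF M q (galF M σ x) :=
  Subtype.ext (by rw [coe_arithmeticRingAut, coe_upF, coe_upF, coe_arithmeticRingAut])

theorem ResLift.galF_mem_loc1 (hσ : ResLift A σ φ) (M : ℕ) (x : loc2 A (iota1 M)) :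
    ∃ h : galF M σ x.1 ∈ loc2 A (iota1 M), red1 A M ⟨_, h⟩ = coeffMap φ (red1 A M x) := by
  obtain ⟨h, e⟩ := hσ.redL_coeffMap ((mem_loc1 M).mp x.2)
  have h' : galF M σ x.1 ∈ loc2 A (iota1 M) := by
    rw [mem_loc1, coe_arithmeticRingAut]
    exact h
  refine ⟨h', ?_⟩
  rw [red1_eq, red1_eq, ← e]
  exact redL_congr _ _ (coe_arithmeticRingAut σ x.1)

theorem ResLift.galF_mem_loc2 (hσ : ResLift A σ φ) (M q : ℕ) [NeZero M] [Fact q.Prime]
    (hqM : ¬ q ∣ M) (x : loc2 A (iota2 M q hqM)) :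
    ∃ h : galF (q * M) σ x.1 ∈ loc2 A (iota2 M q hqM),
      ∀ s, red2 A (iota2 M q hqM) ⟨_, h⟩ s = coeffMap φ (red2 A (iota2 M q hqM) x s) := by
  have key : ∀ s, iota2 M q hqM s (galF (q * M) σ x.1) =
      coeffMap (σ : QBar →+* QBar) (iota2 M q hqM s x.1) := by
    intro s
    fin_cases s
    · exact coe_arithmeticRingAut σ x.1
    · refine (iota2_one M q hqM _).trans ?_
      rw [wEquiv_galois, coe_arithmeticRingAut]
      exact congrArg _ (iota2_one M q hqM x.1).symm
  have hl := fun s => hσ.redL_coeffMap ((mem_loc2 (iota2 M q hqM)).mp x.2 s)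
  have h' : galF (q * M) σ x.1 ∈ loc2 A (iota2 M q hqM) :=
    (mem_loc2 _).mpr fun s => by rw [key s]; exact (hl s).1
  refine ⟨h', fun s => ?_⟩
  rw [red2_apply, red2_apply, ← (hl s).2]
  exact redL_congr _ _ (key s)

/-- The Galois action preserves spaces of functions with bounded poles over `∞`. -/
theorem galF_mem_poles (N : ℕ) [NeZero N] {y x : FB N} {n : ℕ}
    (hy : galF N σ y = y) (hx : x ∈ riemannRochSpace (n • FF.poles QBar y)) :
    galF N σ x ∈ riemannRochSpace (n • FF.poles QBar y) := by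
  set g := arithmeticGalois (modularFunctionFieldFull N) σ
  rw [RedTorsion.mem_polesSpace] at hx ⊢
  intro v
  have hgx : ∀ z : FB N, galF N σ z = g • z := fun z => rfl
  have hord : ∀ z : FB N, v.ord (galF N σ z) = (g⁻¹ • v).ord z := fun z => by
    have := SemilinearAut.ord_smul g (g⁻¹ • v) z
    rwa [smul_inv_smul, ← hgx] at this
  have hp : FF.poles QBar y v = FF.poles QBar y (g⁻¹ • v) := by
    rw [FF.poles_apply, FF.poles_apply, ← hord y, hy]
  have := hx (g⁻¹ • v)
  rw [FF.mem_ordGe] at this ⊢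
  rw [hp, hord]
  rcases this with h | h
  · exact Or.inl (by rw [h, map_zero])
  · exact Or.inr h

end Fermat.Agent.Semistable

end
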