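import Mathlib
import Fermat.Agent.Semistable.ModBound
import Fermat.Agent.Semistable.GoodM

/-!
# The ring of reductions at level `q M` inside the pairs of reductions
-/

set_option autoImplicit false
set_option linter.unusedSectionVars false

noncomputable section

namespace Fermat.Agent.Semistable

open ModularCurve AlgebraicCurve Polynomial
open Arith (QBar)

attribute [local instance 2000] HahnSeries.powerSeriesAlgebra

section Generic

variable {K F : Type*} [Field K] [Field F] [Algebra K F] [FF.IsFunctionField K F]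

theorem mul_mem_polesSpace {x y z : F} {a b : ℕ}
    (hy : y ∈ riemannRochSpace (a • FF.poles K x))
    (hz : z ∈ riemannRochSpace (b • FF.poles K x)) :
    y * z ∈ riemannRochSpace ((a + b) • FF.poles K x) := by
  rw [RedTorsion.mem_polesSpace] at hy hz ⊢
  intro v
  refine FF.ordGe_anti v (le_of_eq ?_) (FF.mul_mem_ordGe v (hy v) (hz v))
  push_cast
  ring

theorem one_mem_polesSpace (x : F) (a : ℕ) : (1 : F) ∈ riemannRochSpace (a • FF.poles K x) := by
  rw [RedTorsion.mem_polesSpace]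
  intro v
  refine FF.mem_ordGe_of_le v ?_
  rw [v.ord_one, FF.poles_apply, neg_nonpos]
  exact mul_nonneg (Int.natCast_nonneg _) (le_max_left _ _)

theorem self_mem_polesSpace (x : F) : x ∈ riemannRochSpace (1 • FF.poles K x) :=
  RedTorsion.mem_polesSpace.mpr fun v =>
    FF.ordGe_anti v (by rw [Nat.cast_one, one_mul]) (RedTorsion.poles_mem_ordGe v x)

theorem pow_mem_polesSpace {x y : F} {a : ℕ} (hy : y ∈ riemannRochSpace (a • FF.poles K x)) :
    ∀ i : ℕ, y ^ i ∈ riemannRochSpace ((i * a) • FF.poles K x)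
  | 0 => by rw [pow_zero]; exact one_mem_polesSpace _ _
  | i + 1 => by rw [pow_succ, Nat.succ_mul]; exact mul_mem_polesSpace (pow_mem_polesSpace hy i) hy

theorem mem_ordGe_zero_of_poles {x z : F} {a : ℕ} (hz : z ∈ riemannRochSpace (a • FF.poles K x))
    {v : Place K F} (hv : 0 ≤ v.ord x) : z ∈ FF.ordGe v 0 := by
  have h := RedTorsion.mem_polesSpace.mp hz v
  rwa [FF.poles_apply, max_eq_left (by omega), mul_zero, neg_zero] at h

/-- Cancelling a factor with prescribed poles lowers the pole bound accordingly. -/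
theorem cancel_poles {x μ φ : F} {e a a' b' : ℕ}
    (hμ : ∀ v : Place K F, v.ord x < 0 → μ ≠ 0 ∧ v.ord μ = e * v.ord x) (hb : b' ≤ e + a')
    (hφ : φ ∈ riemannRochSpace (a • FF.poles K x))
    (hp : μ * φ ∈ riemannRochSpace (b' • FF.poles K x)) :
    φ ∈ riemannRochSpace (a' • FF.poles K x) := by
  rw [RedTorsion.mem_polesSpace] at hp ⊢
  intro v
  by_cases hv : v.ord x < 0
  · rcases eq_or_ne φ 0 with rfl | hφ0
    · exact zero_mem _
    obtain ⟨hμ0, hμv⟩ := hμ v hv
    have h := FF.le_ord_of_mem_ordGe v (mul_ne_zero hμ0 hφ0) (hp v)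
    rw [v.ord_mul hμ0 hφ0, hμv, FF.poles_apply, max_eq_right (by omega)] at h
    refine FF.mem_ordGe_of_le v ?_
    rw [FF.poles_apply, max_eq_right (by omega)]
    have : (b' : ℤ) ≤ e + a' := by exact_mod_cast hb
    nlinarith
  · refine FF.ordGe_anti v ?_ (mem_ordGe_zero_of_poles hφ (not_lt.mp hv))
    rw [neg_nonpos, FF.poles_apply]
    exact mul_nonneg (Int.natCast_nonneg _) (le_max_left _ _)

end Generic

/-- A map injective modulo subspaces with matching codimensions is surjective modulo them. -/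
theorem le_map_sup_of_finrank {k V W : Type*} [Field k] [AddCommGroup V] [Module k V]
    [AddCommGroup W] [Module k W] (f : V →ₗ[k] W) (hf : Function.Injective f)
    {a a' : Submodule k V} {b b' : Submodule k W} [FiniteDimensional k a] [FiniteDimensional k a']
    [FiniteDimensional k b] (hab : a.map f ≤ b) (hb : b' ≤ b)
    (hinj : ∀ x ∈ a, f x ∈ b' → x ∈ a')
    (hdim : Module.finrank k a + Module.finrank k b' ≥ Module.finrank k b + Module.finrank k a') :
    b ≤ a.map f ⊔ b' := by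
  have : FiniteDimensional k b' := Submodule.finiteDimensional_of_le hb
  have h1 := Submodule.finrank_sup_add_finrank_inf_eq (a.map f) b'
  have h2 : Module.finrank k (a.map f ⊓ b' : Submodule k W) ≤ Module.finrank k a' := by
    have hle : a.map f ⊓ b' ≤ a'.map f := by
      rintro _ ⟨⟨x, hx, rfl⟩, hx'⟩
      exact ⟨x, hinj x hx hx', rfl⟩
    refine (Submodule.finrank_mono hle).trans ?_
    rw [← (Submodule.equivMapOfInjective f hf a').finrank_eq]
  have h3 := (Submodule.equivMapOfInjective f hf a).finrank_eq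
  refine (Submodule.eq_of_le_of_finrank_le (sup_le hab hb) ?_).ge
  omega

variable {A : ValuationSubring QBar} {M : ℕ} [NeZero M] {q : ℕ} [hq : Fact q.Prime]

variable (A M q) in
/-- The standing hypotheses. -/
structure Setup : Prop where
  hA : A.LiesOverPrime q
  hqM : ¬ q ∣ M
  hM : (M : Res A) ≠ 0
  good : GoodM A M

variable [CharP (Res A) q]

/-! ### The Frobenius endomorphism of the residual function field -/

omit [NeZero M] in
theorem qExpand_mem_KM {z : LaurentSeries (Res A)} (hz : z ∈ KM A M) :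
    qExpand (Res A) q z ∈ KM A M := by
  unfold KM modularFunctionFieldFullC at hz ⊢
  induction hz using IntermediateField.adjoin_induction with
  | mem x hx =>
    obtain ⟨d, hd, hdM, rfl⟩ := hx
    rw [← pow_char_eq_qExpand_of_fixed q]
    · exact pow_mem (jqModCd_mem_full (Res A) M hdM) q
    · intro n
      rcases coeff_qExpand_cases d (jqModC (Res A)) n with h | ⟨m, h⟩
      · rw [h, zero_pow hq.out.ne_zero]
      · rw [h, coeff_jqModC_eq_intCast, ← frobenius_def, map_intCast]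
  | algebraMap c => rw [qExpand_const]; exact IntermediateField.algebraMap_mem _ c
  | add x y _ _ h1 h2 => rw [map_add]; exact add_mem h1 h2
  | inv x _ h1 => rw [map_inv₀]; exact inv_mem h1
  | mul x y _ _ h1 h2 => rw [map_mul]; exact mul_mem h1 h2

variable (A M q) in
/-- `x ↦ x(q ^ q)` on the residual function field. -/
def qK : KM A M →ₐ[Res A] KM A M where
  toFun x := ⟨qExpand (Res A) q x, qExpand_mem_KM x.2⟩
  map_one' := Subtype.ext (map_one _)
  map_zero' := Subtype.ext (map_zero _)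
  map_mul' _ _ := Subtype.ext (map_mul _ _ _)
  map_add' _ _ := Subtype.ext (map_add _ _ _)
  commutes' c := Subtype.ext (qExpand_const q c)

omit [NeZero M] in
theorem coe_qK (x : KM A M) :
    (qK A M q x : LaurentSeries (Res A)) = qExpand (Res A) q (x : LaurentSeries (Res A)) := rfl

omit [NeZero M] in
theorem qK_jK : qK A M q (jK A M) = jK A M ^ q :=
  Subtype.ext (by rw [coe_qK, IntermediateField.coe_pow, coe_jK, pow_eq_qExpand_gen_one])

variable [FF.IsFunctionField (Res A) (KM A M)]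

omit [NeZero M] in
theorem qK_mem_Hk {x : KM A M} {n : ℕ} (hx : x ∈ Hk A M n) : qK A M q x ∈ Hk A M (q * n) := by
  rw [RedTorsion.mem_polesSpace]
  intro v
  refine FF.ordGe_anti v (le_of_eq ?_) (map_mem_ordGe (qK A M q) hx v)
  rw [qK_jK, FF.ord_pow, FF.poles_apply]
  rcases le_total 0 (-v.ord (jK A M)) with h | h
  · rw [max_eq_right h, max_eq_right (by nlinarith [Int.natCast_nonneg q])]
    push_cast; ring
  · rw [max_eq_left h, max_eq_left (by nlinarith [Int.natCast_nonneg q]), mul_zero, mul_zero]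

omit [NeZero M] [CharP (Res A) q] in
theorem coe_mem_HkS {x : KM A M} {n : ℕ} :
    (x : LaurentSeries (Res A)) ∈ HkS A M n ↔ x ∈ Hk A M n := by
  rw [mem_HkS]
  exact ⟨fun ⟨_, hx⟩ => hx, fun hx => ⟨x.2, hx⟩⟩

/-! ### The two rings -/

variable (A M) in
/-- Functions over the residue field regular away from the cusps. -/
def Rk : Subalgebra (Res A) (KM A M) where
  carrier := {x | ∃ n, x ∈ Hk A M n}
  mul_mem' := by
    rintro x y ⟨a, ha⟩ ⟨b, hb⟩
    exact ⟨a + b, mul_mem_polesSpace ha hb⟩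
  add_mem' := by
    rintro x y ⟨a, ha⟩ ⟨b, hb⟩
    exact ⟨max a b, add_mem (RedTorsion.polesSpace_mono (le_max_left a b) ha)
      (RedTorsion.polesSpace_mono (le_max_right a b) hb)⟩
  algebraMap_mem' c := ⟨0, by
    rw [Algebra.algebraMap_eq_smul_one]
    exact Submodule.smul_mem _ _ (one_mem_polesSpace _ _)⟩

variable (A M q) in
/-- The Frobenius endomorphism of `Rk`. -/
def qR : Rk A M →ₐ[Res A] Rk A M :=
  ((qK A M q).comp (Rk A M).val).codRestrict (Rk A M) fun x => by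
    obtain ⟨n, hn⟩ := x.2
    exact ⟨q * n, qK_mem_Hk hn⟩

variable (A M) in
/-- The series attached to an element of `Rk`. -/
def serR : Rk A M →+* LaurentSeries (Res A) :=
  (KM A M).val.toRingHom.comp (Rk A M).val.toRingHom

omit [NeZero M] in
theorem serR_qR (x : Rk A M) : serR A M (qR A M q x) = qExpand (Res A) q (serR A M x) := rfl

omit [NeZero M] [CharP (Res A) q] in
theorem serR_injective : Function.Injective (serR A M) := fun _ _ h =>
  Subtype.ext (Subtype.ext h)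

omit [NeZero M] [CharP (Res A) q] in
theorem exists_serR {z : LaurentSeries (Res A)} {n : ℕ} (hz : z ∈ HkS A M n) :
    ∃ x : Rk A M, serR A M x = z ∧ (x : KM A M) ∈ Hk A M n := by
  obtain ⟨h, hx⟩ := (mem_HkS A M).mp hz
  exact ⟨⟨⟨z, h⟩, n, hx⟩, rfl, hx⟩

theorem qExpand_mem_HkS {z : LaurentSeries (Res A)} {n : ℕ} (hz : z ∈ HkS A M n) :
    qExpand (Res A) q z ∈ HkS A M (q * n) := by
  obtain ⟨h, hx⟩ := (mem_HkS A M).mp hz
  rw [show qExpand (Res A) q z =
    ((qK A M q ⟨z, h⟩ : KM A M) : LaurentSeries (Res A)) from (coe_qK ⟨z, h⟩).symm]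
  exact coe_mem_HkS.mpr (qK_mem_Hk hx)

/-! ### Elementary properties of the reductions -/

variable (h : Setup A M q)
include h

theorem Setup.one_mem_Bn (n : ℕ) : 1 ∈ Bn A M q h.hqM n := by
  refine mem_redSub.mpr ⟨1, one_mem_polesSpace _ _, map_one _⟩

theorem Setup.mul_mem_Bn {a b : ℕ} {r s : Fin 2 → LaurentSeries (Res A)}
    (hr : r ∈ Bn A M q h.hqM a) (hs : s ∈ Bn A M q h.hqM b) :
    r * s ∈ Bn A M q h.hqM (a + b) := by
  obtain ⟨x, hx, rfl⟩ := mem_redSub.mp hr
  obtain ⟨y, hy, rfl⟩ := mem_redSub.mp hs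
  exact mem_redSub.mpr ⟨x * y, mul_mem_polesSpace hx hy, map_mul _ _ _⟩

theorem Setup.Bn_mono {a b : ℕ} (hab : a ≤ b) : Bn A M q h.hqM a ≤ Bn A M q h.hqM b := by
  intro r hr
  obtain ⟨x, hx, rfl⟩ := mem_redSub.mp hr
  exact mem_redSub.mpr ⟨x, RedTorsion.polesSpace_mono hab hx, rfl⟩

theorem Setup.upF_mem_Bn {n : ℕ} (x : loc2 A (iota1 M)) (hx : (x : FB M) ∈ HM M n) :
    ![red1 A M x, qExpand (Res A) q (red1 A M x)] ∈ Bn A M q h.hqM n :=
  mem_redSub.mpr ⟨⟨_, upF_mem_loc2 M q h.hqM x.2⟩, upF_mem_HN M q hx, red2_upF M q h.hqM x⟩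

theorem Setup.downF_mem_Bn {n : ℕ} (x : loc2 A (iota1 M)) (hx : (x : FB M) ∈ HM M n) :
    ![qExpand (Res A) q (red1 A M x), red1 A M x] ∈ Bn A M q h.hqM (q * n) :=
  mem_redSub.mpr ⟨⟨_, downF_mem_loc2 M q h.hqM x.2⟩, downF_mem_HN M q h.hqM hx,
    red2_downF M q h.hqM x⟩

omit [FF.IsFunctionField (Res A) (KM A M)] [CharP (Res A) q] in
/-- The involution of level `q M` preserves integrality and exchanges the reductions. -/
theorem Setup.wEquiv_red2 (x : loc2 A (iota2 M q h.hqM)) :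
    ∃ hw : wEquiv q M h.hqM x.1 ∈ loc2 A (iota2 M q h.hqM),
      red2 A (iota2 M q h.hqM) ⟨_, hw⟩ =
        ![red2 A (iota2 M q h.hqM) x 1, red2 A (iota2 M q h.hqM) x 0] := by
  have hx := (mem_loc2_iff M q h.hqM).mp x.2
  have e : (wEquiv q M h.hqM (wEquiv q M h.hqM x.1) : LSer) = (x.1 : LSer) :=
    congrArg Subtype.val (wEquiv_wEquiv q M h.hqM x.1)
  refine ⟨(mem_loc2_iff M q h.hqM).mpr ⟨hx.2, by rw [e]; exact hx.1⟩, funext fun s => ?_⟩
  rw [red2_apply]
  fin_cases s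
  · exact (redL_congr _ _ rfl).trans (red2_apply (iota2 M q h.hqM) x 1).symm
  · exact (redL_congr _ _ e).trans (red2_apply (iota2 M q h.hqM) x 0).symm

theorem Setup.swap_mem_Bn {n : ℕ} {r : Fin 2 → LaurentSeries (Res A)}
    (hr : r ∈ Bn A M q h.hqM n) : ![r 1, r 0] ∈ Bn A M q h.hqM (q * n) := by
  obtain ⟨x, hx, rfl⟩ := mem_redSub.mp hr
  obtain ⟨hw, e⟩ := h.wEquiv_red2 x
  exact mem_redSub.mpr ⟨⟨_, hw⟩, wEquiv_mem_HN M q h.hqM hx, e⟩

/-- The graph of `x ↦ x(q ^ q)` and its transpose lie in the ring of reductions. -/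
theorem Setup.exists_graph : ∃ n₀ : ℕ, ∀ n, n₀ ≤ n → ∀ z ∈ HkS A M n,
    ![z, qExpand (Res A) q z] ∈ Bn A M q h.hqM n ∧
      ![qExpand (Res A) q z, z] ∈ Bn A M q h.hqM (q * n) := by
  obtain ⟨n₀, hn₀⟩ := exists_red1_surjective q h.hA h.hM h.good
  refine ⟨n₀, fun n hn z hz => ?_⟩
  obtain ⟨x, hx, rfl⟩ := hn₀ n hn z hz
  exact ⟨h.upF_mem_Bn x hx, h.downF_mem_Bn x hx⟩

/-! ### The top layer -/

/-- Both dimensions of the layers are linear in the level. -/
theorem Setup.exists_finrank_Hk : ∃ n₀ : ℕ, ∃ g : ℤ, ∀ n, n₀ ≤ n →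
    (Module.finrank (Res A) (Hk A M n) : ℤ) = n * dedekindPsi M + 1 - g := by
  obtain ⟨n₀, hn₀⟩ := exists_finrank_eq (A := A) M q h.hM
  exact ⟨n₀, _, fun n hn => (hn₀ n hn).2.2⟩

/-- Multiplication by a function with exact poles of order `e` surjects onto the top layers. -/
theorem Setup.exists_layer : ∃ n₀ : ℕ, ∀ (e a a' b b' : ℕ) (μ : KM A M), n₀ ≤ a' → a' ≤ a →
    b = e + a → b' = e + a' → μ ≠ 0 →
    (∀ v : Place (Res A) (KM A M), v.ord (jK A M) < 0 →
      v.ord μ = e * v.ord (jK A M)) →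
    (∀ φ ∈ Hk A M a, μ * φ ∈ Hk A M b) →
    ∀ r ∈ Hk A M b, ∃ φ ∈ Hk A M a, r - μ * φ ∈ Hk A M b' := by
  obtain ⟨n₀, g, hn₀⟩ := h.exists_finrank_Hk
  refine ⟨n₀, fun e a a' b b' μ ha' haa hb hb' hμ hord hmap r hr => ?_⟩
  have hle := le_map_sup_of_finrank (LinearMap.mulLeft (Res A) μ)
    (mul_right_injective₀ hμ) (a := Hk A M a) (a' := Hk A M a') (b := Hk A M b)
    (b' := Hk A M b') (by rintro _ ⟨φ, hφ, rfl⟩; exact hmap φ hφ)
    (RedTorsion.polesSpace_mono (by omega))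
    (fun φ hφ hp => cancel_poles (fun v hv => ⟨hμ, hord v hv⟩) hb'.le hφ hp) (by
      have e1 := hn₀ a (by omega)
      have e2 := hn₀ a' ha'
      have e3 := hn₀ b (by omega)
      have e4 := hn₀ b' (by omega)
      have : (b : ℤ) + a' = a + b' := by omega
      nlinarith)
  obtain ⟨_, ⟨φ, hφ, rfl⟩, l, hl, hsum⟩ := Submodule.mem_sup.mp (hle hr)
  exact ⟨φ, hφ, by rw [← hsum]; simpa using hl⟩

/-- The first top layer, in one degree. -/
theorem Setup.exists_top_left : ∃ n₀ : ℕ, ∀ d, n₀ ≤ d → ∀ z ∈ HkS A M (d + 1),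
    ![z, 0] ∈ Bn A M q h.hqM (d + 1) ⊔ Pk A M q d := by
  obtain ⟨n₁, hn₁⟩ := h.exists_layer
  obtain ⟨n₂, hn₂⟩ := exists_red1_surjective q h.hA h.hM h.good
  refine ⟨q * q + n₁ + n₂, fun d hd z hz => ?_⟩
  obtain ⟨z, rfl, hz'⟩ := exists_serR hz
  have hqq : 1 < q * q := Nat.lt_of_lt_of_le hq.out.one_lt (Nat.le_mul_self q)
  have hord : ∀ v : Place (Res A) (KM A M), v.ord (jK A M) < 0 →
      jK A M - jK A M ^ (q * q) ≠ 0 ∧
        v.ord (jK A M - jK A M ^ (q * q)) = ((q * q : ℕ) : ℤ) * v.ord (jK A M) := by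
    intro v hv
    have hj0 : jK A M ≠ 0 := fun h => by simp [h] at hv
    obtain ⟨h1, h2⟩ := FF.ord_add_eq_left v (g := jK A M)
      (neg_ne_zero.mpr (pow_ne_zero (q * q) hj0)) (Or.inr (by
        rw [FF.ord_neg, FF.ord_pow]
        have : (1 : ℤ) < ((q * q : ℕ) : ℤ) := by exact_mod_cast hqq
        nlinarith))
    rw [neg_add_eq_sub] at h1 h2
    exact ⟨h1, by rw [h2, FF.ord_neg, FF.ord_pow]⟩
  have hε0 : jK A M - jK A M ^ (q * q) ≠ 0 := fun h => by
    have h1 : (X - X ^ (q * q) : (Res A)[X]) = 0 :=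
      transcendental_iff.mp (jK_transcendental A M) _ (by simpa using h)
    have h2 := congrArg (fun p => p.coeff 1) h1
    simp only [coeff_sub, coeff_X_one, coeff_X_pow, if_neg hqq.ne, sub_zero, coeff_zero] at h2
    exact one_ne_zero h2
  set a := d + 1 - q * q with ha
  have hmem : ∀ φ ∈ Hk A M a, (jK A M - jK A M ^ (q * q)) * φ ∈ Hk A M (d + 1) ∧
      ![serR A M ⟨(jK A M - jK A M ^ (q * q)), (q * q),
          RedTorsion.mem_polesSpace.mpr fun v => by
            rw [FF.poles_apply]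
            by_cases hv : v.ord (jK A M) < 0
            · exact FF.mem_ordGe_of_le v (by
                rw [(hord v hv).2, max_eq_right (by omega)]; linarith)
            · rw [max_eq_left (by omega), mul_zero, neg_zero, FF.mem_ordGe_zero]
              have hj := (FF.mem_ordGe_zero v).mp (FF.mem_ordGe_of_le v (not_lt.mp hv))
              exact sub_mem hj (pow_mem hj _)⟩ *
        ((φ : KM A M) : LaurentSeries (Res A)), 0] ∈ Bn A M q h.hqM (d + 1) := by
    intro φ hφ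
    obtain ⟨y, hy, hyφ⟩ := hn₂ a (by omega) _ (coe_mem_HkS.mpr hφ)
    set tj : loc2 A (iota1 M) := ⟨jM M, jM_mem M⟩
    set a' : loc2 A (iota2 M q h.hqM) :=
      ⟨_, upF_mem_loc2 M q h.hqM tj.2⟩ - (⟨_, downF_mem_loc2 M q h.hqM tj.2⟩) ^ q with ha'
    have hjpole : jM M ∈ HM M 1 := self_mem_polesSpace _
    have hmem' : ((a' * upParam M h.hqM y : loc2 A (iota2 M q h.hqM)) : FB (q * M)) ∈
        HN M q (d + 1) := by
      have h1 : (a' : FB (q * M)) ∈ HN M q (q * q) := by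
        rw [ha', AddSubgroupClass.coe_sub, SubmonoidClass.coe_pow]
        refine sub_mem (RedTorsion.polesSpace_mono (by omega) (upF_mem_HN M q hjpole)) ?_
        have h2 := downF_mem_HN M q h.hqM hjpole
        rw [mul_one] at h2
        exact mul_comm q q ▸ pow_mem_polesSpace h2 q
      have := mul_mem_polesSpace h1 (upF_mem_HN M q hy)
      rwa [show q * q + a = d + 1 by omega] at this
    have hred : red2 A (iota2 M q h.hqM) (a' * upParam M h.hqM y) =
        ![(jqModC (Res A) - jqModC (Res A) ^ (q * q)) * ((φ : KM A M) : LaurentSeries (Res A)),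
          0] := by
      rw [map_mul, ha', map_sub, map_pow, red2_upF, red2_downF, red2_upF, red1_jM, hyφ]
      funext s
      rw [Pi.mul_apply, Pi.sub_apply, Pi.pow_apply]
      fin_cases s
      · simp [← pow_eq_qExpand_gen_one, ← pow_mul]
      · simp [← pow_eq_qExpand_gen_one]
    have hin : ![(jqModC (Res A) - jqModC (Res A) ^ (q * q)) *
        ((φ : KM A M) : LaurentSeries (Res A)), 0] ∈ Bn A M q h.hqM (d + 1) :=
      mem_redSub.mpr ⟨_, hmem', hred⟩
    refine ⟨?_, hin⟩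
    have h4 := (mem_Pk A M).mp (Bn_le_Pk M q h.hqM h.hA h.hM _ hin) |>.1
    exact coe_mem_HkS.mp h4
  obtain ⟨φ, hφ, hl⟩ := hn₁ (q * q) a (a - 1) (d + 1) d _ (by omega) (by omega) (by omega)
    (by omega) hε0 (fun v hv => (hord v hv).2) (fun φ hφ => (hmem φ hφ).1) _ hz'
  refine Submodule.mem_sup.mpr ⟨_, (hmem φ hφ).2,
    ![((z : KM A M) - (jK A M - jK A M ^ (q * q)) * φ : KM A M), 0], ?_, ?_⟩
  · exact (mem_Pk A M).mpr ⟨coe_mem_HkS.mpr hl, zero_mem _⟩
  · funext s
    fin_cases s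
    · simp [serR]
    · simp

/-- The second top layer, in the degrees divisible by `q + 1`. -/
theorem Setup.exists_top_right : ∃ n₀ : ℕ, ∀ m, n₀ ≤ m → ∀ z ∈ HkS A M (q * ((q + 1) * m)),
    ∃ s, ∃ _ : s ∈ HkS A M ((q + 1) * m),
      ![s, z] ∈ Bn A M q h.hqM ((q + 1) * m) ⊔ Pk A M q ((q + 1) * m - 1) := by
  obtain ⟨n₁, hn₁⟩ := h.exists_layer
  obtain ⟨n₂, hn₂⟩ := exists_red1_surjective q h.hA h.hM h.good
  obtain ⟨P, hPm, hPd, hPA, g, hPg, hgreg⟩ := exists_special M q h.hqM A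
  obtain ⟨P', hP', hP'd, hP'm⟩ := lifts_and_natDegree_eq_and_monic
    (show P ∈ lifts A.subtype from
      (lifts_iff_coeff_lifts P).mpr fun i => ⟨⟨_, hPA i⟩, rfl⟩) hPm
  refine ⟨q + n₁ + n₂, fun m hm z hz => ?_⟩
  obtain ⟨z, rfl, hz'⟩ := exists_serR hz
  set Pb := P'.map (IsLocalRing.residue A) with hPb
  have hPbd : Pb.natDegree = q + 1 := by rw [hPb, hP'm.natDegree_map, hP'd, hPd]
  have hPb0 : Pb ≠ 0 := (hP'm.map _).ne_zero
  have hj0 : jK A M ≠ 0 := fun h => jqModC_ne_zero_of_nontrivial (Res A) (congrArg Subtype.val h)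
  set ν : KM A M := (jK A M)⁻¹ * aeval (jK A M ^ q) Pb with hν
  set μ : KM A M := ν ^ m with hμ
  have hν0 : ν ≠ 0 := mul_ne_zero (inv_ne_zero hj0) fun h => hPb0
    (transcendental_iff.mp ((jK_transcendental A M).pow hq.out.pos) _ h)
  have hμ0 : μ ≠ 0 := pow_ne_zero _ hν0
  have he : q * q + q - 1 + 1 = q * q + q := Nat.sub_add_cancel (by
    have := hq.out.pos; omega)
  have hord : ∀ v : Place (Res A) (KM A M), v.ord (jK A M) < 0 →
      v.ord μ = (((q * q + q - 1) * m : ℕ) : ℤ) * v.ord (jK A M) := by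
    intro v hv
    have hv' : v.ord (jK A M ^ q) < 0 := by
      rw [FF.ord_pow]
      nlinarith [(by exact_mod_cast hq.out.pos : (0 : ℤ) < q)]
    obtain ⟨h1, h2⟩ := RedTorsion.ord_aeval_of_pole v hv' Pb hPb0
    rw [hμ, FF.ord_pow, hν, v.ord_mul (inv_ne_zero hj0) h1, v.ord_inv, h2, hPbd, FF.ord_pow]
    push_cast
    have he' : ((q * q + q - 1 : ℕ) : ℤ) + 1 = q * q + q := by exact_mod_cast he
    linear_combination (m : ℤ) * v.ord (jK A M) * (-1) * he'
  set tj : loc2 A (iota1 M) := ⟨jM M, jM_mem M⟩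
  set ti : loc2 A (iota1 M) := ⟨(jM M)⁻¹, jM_inv_mem M⟩
  set gl : loc2 A (iota2 M q h.hqM) := ⟨_, downF_mem_loc2 M q h.hqM ti.2⟩ *
    upParam M h.hqM (evA (iota1 M) tj P') with hgl
  have hU0 : downF M q h.hqM (jM M) ≠ 0 := (_root_.map_ne_zero _).mpr fun h =>
    jqModC_ne_zero_of_nontrivial QBar (by rw [← coe_jM M, h]; rfl)
  have hglg : (gl : FB (q * M)) = g := by
    show downF M q h.hqM (jM M)⁻¹ * upF M q (evA (iota1 M) tj P' : FB M) = g
    rw [coe_evA, hP', map_inv₀, ← aeval_algHom_apply, hPg, ← mul_assoc, inv_mul_cancel₀ hU0,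
      one_mul]
  have hglred : red2 A (iota2 M q h.hqM) gl 1 = ((ν : KM A M) : LaurentSeries (Res A)) := by
    rw [hgl, map_mul, Pi.mul_apply, red2_downF, red2_upF, red1_jM_inv, red1_evA, red1_jM]
    simp only [Matrix.cons_val_one, Matrix.cons_val_fin_one]
    rw [map_aevalPoly _ (qExpand_const q), ← pow_eq_qExpand_gen_one, hν]
    push_cast
    rw [coe_jK]
    congr 1
    exact aeval_algHom_apply (KM A M).val (jK A M ^ q) Pb
  have hmem : ∀ φ ∈ Hk A M m, μ * φ ∈ Hk A M (q * ((q + 1) * m)) ∧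
      ∃ s ∈ HkS A M ((q + 1) * m),
        ![s, ((μ * φ : KM A M) : LaurentSeries (Res A))] ∈ Bn A M q h.hqM ((q + 1) * m) := by
    intro φ hφ
    obtain ⟨y, hy, hyφ⟩ := hn₂ m (by omega) _ (coe_mem_HkS.mpr hφ)
    set X' : loc2 A (iota2 M q h.hqM) := ⟨_, downF_mem_loc2 M q h.hqM y.2⟩ * gl ^ m with hX'
    have hXmem : (X' : FB (q * M)) ∈ HN M q ((q + 1) * m) := by
      rw [hX', MulMemClass.coe_mul, SubmonoidClass.coe_pow, hglg, RedTorsion.mem_polesSpace]
      intro v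
      obtain ⟨hU1, hU2⟩ := ord_downF_jM M q h.hqM v
      have hd := map_mem_ordGe (downF M q h.hqM) hy v
      by_cases hv : v.ord (upF M q (jM M)) < 0
      · obtain ⟨hU, -⟩ := hU2 hv
        obtain ⟨hP0, hPo⟩ := RedTorsion.ord_aeval_of_pole v hv P hPm.ne_zero
        have hg0 : g ≠ 0 := fun h => hP0 (by rw [hPg, h, mul_zero])
        rw [hPg, v.ord_mul hU0 hg0, hPd] at hPo
        refine FF.ordGe_anti v ?_ (FF.mul_mem_ordGe v hd
          (FF.pow_mem_ordGe v (FF.mem_ordGe_of_le v (le_refl (v.ord g))) m))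
        rw [FF.poles_apply, max_eq_right (by omega), max_eq_right (by omega)]
        push_cast at hPo ⊢
        nlinarith
      · rw [FF.poles_apply, max_eq_left (by omega), mul_zero, neg_zero]
        have hd' := FF.mul_mem_ordGe v hd (FF.pow_mem_ordGe v (hgreg v (not_lt.mp hv)) m)
        rw [max_eq_left (by have := hU1 (not_lt.mp hv); omega)] at hd'
        simpa using hd'
    have hB : red2 A (iota2 M q h.hqM) X' ∈ Bn A M q h.hqM ((q + 1) * m) :=
      mem_redSub.mpr ⟨X', hXmem, rfl⟩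
    have h1 : red2 A (iota2 M q h.hqM) X' 1 = ((μ * φ : KM A M) : LaurentSeries (Res A)) := by
      rw [hX', map_mul, map_pow, Pi.mul_apply, Pi.pow_apply, red2_downF, hglred, hμ]
      push_cast
      simp [hyφ, mul_comm]
    have hP2 := (mem_Pk A M).mp (Bn_le_Pk M q h.hqM h.hA h.hM _ hB)
    refine ⟨coe_mem_HkS.mp (h1 ▸ hP2.2), red2 A (iota2 M q h.hqM) X' 0, hP2.1, ?_⟩
    rw [← h1]
    convert hB using 1
    funext s
    fin_cases s <;> rfl
  have hqD : q * ((q + 1) * m) = (q * q + q - 1) * m + m := by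
    rw [← Nat.succ_mul, Nat.succ_eq_add_one, he]; ring
  have hm0 : 0 < m := by
    have := hq.out.pos
    omega
  have hqle : q ≤ q * ((q + 1) * m) := Nat.le_mul_of_pos_right q (Nat.mul_pos (Nat.succ_pos q) hm0)
  obtain ⟨φ, hφ, hl⟩ := hn₁ ((q * q + q - 1) * m) m (m - q) (q * ((q + 1) * m))
    (q * ((q + 1) * m) - q) μ (by omega) (by omega) hqD (by omega) hμ0 hord
    (fun φ hφ => (hmem φ hφ).1) _ hz'
  obtain ⟨s, hs, hsB⟩ := (hmem φ hφ).2
  refine ⟨s, hs, Submodule.mem_sup.mpr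
    ⟨_, hsB, ![0, (((z : KM A M) - μ * φ : KM A M) : LaurentSeries (Res A))], ?_, ?_⟩⟩
  · refine (mem_Pk A M).mpr ⟨zero_mem _, ?_⟩
    rw [Nat.mul_sub, mul_one]
    exact coe_mem_HkS.mpr hl
  · funext i
    fin_cases i <;> simp [serR]

/-- **The top layers are filled**: `P(d+1) = B(d+1) + P(d)`. -/
theorem Setup.exists_top : ∃ n₀ : ℕ, ∀ d, n₀ ≤ d →
    Pk A M q (d + 1) ≤ Bn A M q h.hqM (d + 1) ⊔ Pk A M q d := by
  obtain ⟨n₁, hn₁⟩ := h.exists_top_left
  obtain ⟨n₂, hn₂⟩ := h.exists_top_right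
  obtain ⟨n₃, hn₃⟩ := h.exists_layer
  set m := n₁ + n₂ + n₃ + 1 with hm
  have hmle : m ≤ (q + 1) * m := Nat.le_mul_of_pos_left m (by omega)
  obtain ⟨d₀, hd₀⟩ : ∃ d₀, (q + 1) * m = d₀ + 1 := ⟨(q + 1) * m - 1, by omega⟩
  refine ⟨d₀, fun d hd => ?_⟩
  induction d, hd using Nat.le_induction with
  | base =>
    intro r hr
    obtain ⟨hr0, hr1⟩ := (mem_Pk A M).mp hr
    obtain ⟨s, hs, hsr⟩ := hn₂ m (by omega) (r 1) (by rw [hd₀]; exact hr1)
    rw [hd₀, Nat.add_sub_cancel] at hsr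
    rw [hd₀] at hs
    have hl := hn₁ d₀ (by omega) (r 0 - s) (sub_mem hr0 hs)
    have e : r = ![r 0 - s, 0] + ![s, r 1] := by
      funext i; fin_cases i <;> simp
    rw [e]
    exact add_mem hl hsr
  | succ d hd ih =>
    intro r hr
    obtain ⟨hr0, hr1⟩ := (mem_Pk A M).mp hr
    have hqd : ∀ k, q * (k + 1) = q + q * k := fun k => by ring
    have hqd' : n₃ ≤ q * d := le_trans (by omega) (Nat.le_mul_of_pos_left d hq.out.pos)
    obtain ⟨z0, e0, hz0⟩ := exists_serR hr0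
    obtain ⟨z1, e1, hz1⟩ := exists_serR hr1
    have hj0 : jK A M ≠ 0 := fun h =>
      jqModC_ne_zero_of_nontrivial (Res A) (congrArg Subtype.val h)
    have hmap : ∀ (e b : ℕ) (φ : KM A M), φ ∈ Hk A M b → jK A M ^ e * φ ∈ Hk A M (e + b) := by
      intro e b φ hφ
      refine mul_mem_polesSpace (RedTorsion.mem_polesSpace.mpr fun v =>
        FF.mem_ordGe_of_le v ?_) hφ
      rw [FF.ord_pow, FF.poles_apply]
      nlinarith [Int.natCast_nonneg e, le_max_right (0 : ℤ) (-v.ord (jK A M))]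
    obtain ⟨φ0, hφ0, hl0⟩ := hn₃ 1 (d + 1) d (d + 1 + 1) (d + 1) (jK A M ^ 1) (by omega)
      (by omega) (by omega) (by omega) (pow_ne_zero _ hj0) (fun v _ => FF.ord_pow v _ _)
      (fun φ hφ => by have := hmap 1 _ φ hφ; rwa [add_comm 1 (d + 1)] at this) _ hz0
    obtain ⟨φ1, hφ1, hl1⟩ := hn₃ q (q * (d + 1)) (q * d) (q * (d + 1 + 1)) (q * (d + 1))
      (jK A M ^ q) hqd' (Nat.mul_le_mul_left q (by omega)) (hqd _) (hqd _) (pow_ne_zero _ hj0)
      (fun v _ => FF.ord_pow v _ _)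
      (fun φ hφ => by rw [hqd]; exact hmap q _ φ hφ) _ hz1
    have hφ : ![(φ0 : LaurentSeries (Res A)), (φ1 : LaurentSeries (Res A))] ∈ Pk A M q (d + 1) :=
      (mem_Pk A M).mpr ⟨coe_mem_HkS.mpr hφ0, coe_mem_HkS.mpr hφ1⟩
    obtain ⟨β, hβ, l, hl, hβl⟩ := Submodule.mem_sup.mp (ih hφ)
    obtain ⟨hl0', hl1'⟩ := (mem_Pk A M).mp hl
    have hjB : ![jqModC (Res A), jqModC (Res A) ^ q] ∈ Bn A M q h.hqM 1 := by
      have := h.upF_mem_Bn (n := 1) ⟨jM M, jM_mem M⟩ (RedTorsion.mem_polesSpace.mpr fun v => by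
        show jM M ∈ _
        refine FF.mem_ordGe_of_le v ?_
        rw [FF.poles_apply, Nat.cast_one, one_mul]
        omega)
      rwa [red1_jM, ← pow_eq_qExpand_gen_one] at this
    refine Submodule.mem_sup.mpr ⟨_, h.Bn_mono (by omega) (h.mul_mem_Bn hjB hβ),
      r - ![jqModC (Res A), jqModC (Res A) ^ q] * β, ?_, add_sub_cancel _ _⟩
    have hβ' : β = ![(φ0 : LaurentSeries (Res A)), (φ1 : LaurentSeries (Res A))] - l :=
      eq_sub_of_add_eq hβl
    refine (mem_Pk A M).mpr ⟨?_, ?_⟩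
    · obtain ⟨w, hw, hw'⟩ := exists_serR hl0'
      have e : (r - ![jqModC (Res A), jqModC (Res A) ^ q] * β) 0 =
          (((z0 : KM A M) - jK A M ^ 1 * φ0 + jK A M ^ 1 * w : KM A M) :
            LaurentSeries (Res A)) := by
        rw [hβ', Pi.sub_apply, Pi.mul_apply, Pi.sub_apply, ← e0, ← hw]
        simp [serR, coe_jK]
        ring
      rw [e]
      refine coe_mem_HkS.mpr (add_mem hl0 ?_)
      have := hmap 1 _ _ hw'
      rwa [add_comm 1 d] at this
    · obtain ⟨w, hw, hw'⟩ := exists_serR hl1'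
      have e : (r - ![jqModC (Res A), jqModC (Res A) ^ q] * β) 1 =
          (((z1 : KM A M) - jK A M ^ q * φ1 + jK A M ^ q * w : KM A M) :
            LaurentSeries (Res A)) := by
        rw [hβ', Pi.sub_apply, Pi.mul_apply, Pi.sub_apply, ← e1, ← hw]
        simp [serR, coe_jK]
        ring
      rw [e]
      refine coe_mem_HkS.mpr (add_mem hl1 ?_)
      rw [hqd]
      exact hmap q _ _ hw'

end Fermat.Agent.Semistable

end
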