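import Mathlib
import Fermat.Agent.Semistable.Pairs
import Fermat.Agent.Semistable.Points

/-!
# The reduction at level `q M` is two copies of level `M` glued at finitely many points

The ring of reductions of functions regular away from the cusps consists of the pairs `(a, b)`
with `χ b = (twist χ) a` at finitely many points `χ`.
-/

set_option autoImplicit false
set_option maxHeartbeats 1000000
set_option linter.unusedSectionVars false

noncomputable section

namespace Fermat.Agent.Semistable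

open ModularCurve AlgebraicCurve Polynomial
open Arith (QBar)

attribute [local instance 2000] Module.Free.of_divisionRing
attribute [local instance 10] IntermediateField.algebra'

variable {A : ValuationSubring QBar} {M : ℕ} [NeZero M] {q : ℕ} [hq : Fact q.Prime]
  [CharP (Res A) q] [FF.IsFunctionField (Res A) (KM A M)]

/-! ### Pairs with bounded poles -/

variable (A M q) in
/-- Pairs with bounded poles in the residual function field. -/
abbrev PK (n : ℕ) : Type := Hk A M n × Hk A M (q * n)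

variable (A M q) in
/-- Pairs of functions as pairs of series. -/
def pkMap (n : ℕ) : PK A M q n →ₗ[Res A] (Fin 2 → LaurentSeries (Res A)) :=
  LinearMap.pi ![(valLin A M).comp ((Hk A M n).subtype.comp (LinearMap.fst _ _ _)),
    (valLin A M).comp ((Hk A M (q * n)).subtype.comp (LinearMap.snd _ _ _))]

theorem pkMap_apply (n : ℕ) (x : PK A M q n) :
    pkMap A M q n x = ![((x.1 : KM A M) : LaurentSeries (Res A)),
      ((x.2 : KM A M) : LaurentSeries (Res A))] := by
  funext s; fin_cases s <;> rfl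

theorem pkMap_injective (n : ℕ) : Function.Injective (pkMap A M q n) := by
  intro x y h
  rw [pkMap_apply, pkMap_apply] at h
  exact Prod.ext (Subtype.ext (Subtype.ext (by simpa using congrFun h 0)))
    (Subtype.ext (Subtype.ext (by simpa using congrFun h 1)))

theorem range_pkMap (n : ℕ) : LinearMap.range (pkMap A M q n) = Pk A M q n := by
  ext r
  rw [LinearMap.mem_range, mem_Pk]
  constructor
  · rintro ⟨x, rfl⟩
    rw [pkMap_apply]
    exact ⟨coe_mem_HkS.mpr x.1.2, coe_mem_HkS.mpr x.2.2⟩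
  · rintro ⟨h0, h1⟩
    obtain ⟨a, ha, ha'⟩ := exists_serR h0
    obtain ⟨b, hb, hb'⟩ := exists_serR h1
    refine ⟨(⟨_, ha'⟩, ⟨_, hb'⟩), ?_⟩
    rw [pkMap_apply]
    funext s
    fin_cases s
    · exact ha
    · exact hb

theorem finiteDimensional_Pk (n : ℕ) : FiniteDimensional (Res A) (Pk A M q n) := by
  rw [← range_pkMap]; infer_instance

theorem finrank_Pk (n : ℕ) : Module.finrank (Res A) (Pk A M q n) =
    Module.finrank (Res A) (Hk A M n) + Module.finrank (Res A) (Hk A M (q * n)) := by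
  rw [← range_pkMap, LinearMap.finrank_range_of_inj (pkMap_injective n), Module.finrank_prod]

variable (h : Setup A M q)
include h

/-- Reductions of level `n` are exactly the reductions of any higher level with level `n` poles. -/
theorem Setup.exists_descend : ∃ n₀ : ℕ, ∀ n, n₀ ≤ n → ∀ m, n ≤ m → ∀ r ∈ Bn A M q h.hqM m,
    r ∈ Pk A M q n → r ∈ Bn A M q h.hqM n := by
  obtain ⟨n₁, hn₁⟩ := exists_finrank_eq (A := A) M q h.hM
  obtain ⟨n₂, hn₂⟩ := h.exists_top
  refine ⟨n₁ + n₂, fun n hn m hm => ?_⟩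
  induction m, hm using Nat.le_induction with
  | base => exact fun r hr _ => hr
  | succ m hm ih =>
    intro r hr hP
    refine ih r ?_ hP
    have hPm : r ∈ Pk A M q m := Pk_mono A M q hm hP
    obtain ⟨f1, d1⟩ := finrank_Bn M q h.hqM h.hA m
    obtain ⟨f2, d2⟩ := finrank_Bn M q h.hqM h.hA (m + 1)
    have := finiteDimensional_Pk (A := A) (M := M) (q := q) m
    have := finiteDimensional_Pk (A := A) (M := M) (q := q) (m + 1)
    have hle : Bn A M q h.hqM m ≤ Bn A M q h.hqM (m + 1) ⊓ Pk A M q m :=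
      le_inf (h.Bn_mono (by omega)) (Bn_le_Pk M q h.hqM h.hA h.hM m)
    refine (Submodule.eq_of_le_of_finrank_le hle ?_).ge ⟨hr, hPm⟩
    have e1 := Submodule.finrank_sup_add_finrank_inf_eq (Bn A M q h.hqM (m + 1)) (Pk A M q m)
    have e2 := Submodule.finrank_mono (hn₂ m (by omega))
    rw [d1]
    rw [d2, finrank_Pk] at e1
    rw [finrank_Pk] at e2
    have hqm : m ≤ q * m := Nat.le_mul_of_pos_left m hq.out.pos
    have hqm' : q * (m + 1) = q * m + q := by ring
    obtain ⟨-, a2, a3⟩ := hn₁ m (by omega)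
    obtain ⟨-, b2, b3⟩ := hn₁ (m + 1) (by omega)
    obtain ⟨-, -, c3⟩ := hn₁ (q * m) (by omega)
    obtain ⟨-, -, d3⟩ := hn₁ (q * (m + 1)) (by omega)
    have hψ : (dedekindPsi (q * M) : ℤ) = (q + 1) * dedekindPsi M := by
      rw [Gamma0.dedekindPsi_mul_of_not_dvd hq.out h.hqM]; push_cast; ring
    rw [hψ] at a2 b2
    push_cast at b2 b3 c3 d3
    linarith

/-! ### The points where the two copies meet -/

theorem Setup.graph_mul (φ : Rk A M) : ∀ (γ : Rk A M) (n : ℕ),
    ![0, serR A M γ] ∈ Bn A M q h.hqM n → ∃ m, ![0, serR A M (φ * γ)] ∈ Bn A M q h.hqM m := by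
  intro γ n hγ
  obtain ⟨n₀, hn₀⟩ := h.exists_graph
  obtain ⟨a, ha⟩ := φ.2
  have h1 := (hn₀ (a + n₀) (by omega) (serR A M φ)
    (coe_mem_HkS.mpr (RedTorsion.polesSpace_mono (by omega) ha))).2
  refine ⟨q * (a + n₀) + n, ?_⟩
  convert h.mul_mem_Bn h1 hγ using 1
  funext s
  fin_cases s <;> simp

/-- The ideal of functions `γ` with `(0, γ)` a reduction. -/
def IZ : Ideal (Rk A M) where
  carrier := {γ | ∃ n, ![0, serR A M γ] ∈ Bn A M q h.hqM n}
  zero_mem' := ⟨0, by
    convert zero_mem (Bn A M q h.hqM 0) using 1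
    funext s; fin_cases s <;> simp⟩
  add_mem' := by
    rintro x y ⟨a, ha⟩ ⟨b, hb⟩
    refine ⟨max a b, ?_⟩
    convert add_mem (h.Bn_mono (le_max_left a b) ha) (h.Bn_mono (le_max_right a b) hb) using 1
    funext s; fin_cases s <;> simp
  smul_mem' := fun φ γ ⟨n, hγ⟩ => h.graph_mul φ γ n hγ

theorem Setup.mem_IZ {γ : Rk A M} :
    γ ∈ IZ h ↔ ∃ n, ![0, serR A M γ] ∈ Bn A M q h.hqM n := Iff.rfl

/-- The ideal is stable under Frobenius. -/
theorem Setup.qR_mem_IZ {γ : Rk A M} (hγ : γ ∈ IZ h) : qR A M q γ ∈ IZ h := by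
  obtain ⟨n, hn⟩ := h.mem_IZ.mp hγ
  obtain ⟨n₀, hn₀⟩ := h.exists_graph
  obtain ⟨a, ha⟩ := γ.2
  have hsw := h.swap_mem_Bn hn
  have hg := (hn₀ (a + n₀) (by omega) (serR A M γ)
    (coe_mem_HkS.mpr (RedTorsion.polesSpace_mono (by omega) ha))).1
  refine h.mem_IZ.mpr ⟨q * n + (a + n₀), ?_⟩
  have h1 := h.Bn_mono (show a + n₀ ≤ q * n + (a + n₀) by omega) hg
  have h2 := h.Bn_mono (show q * n ≤ q * n + (a + n₀) by omega) hsw
  convert sub_mem h1 h2 using 1
  funext s
  fin_cases s <;> simp [serR_qR]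

/-- Twice Frobenius is trivial modulo the ideal. -/
theorem Setup.sub_qR_qR_mem_IZ (ψ : Rk A M) : ψ - qR A M q (qR A M q ψ) ∈ IZ h := by
  obtain ⟨n₀, hn₀⟩ := h.exists_graph
  obtain ⟨a, ha⟩ := ψ.2
  have hψ : serR A M ψ ∈ HkS A M (a + n₀) :=
    coe_mem_HkS.mpr (RedTorsion.polesSpace_mono (by omega) ha)
  have h1 := (hn₀ (a + n₀) (by omega) _ hψ).2
  have h2 := (hn₀ (q * (a + n₀))
    ((Nat.le_add_left n₀ a).trans (Nat.le_mul_of_pos_left _ hq.out.pos)) _
    (qExpand_mem_HkS hψ)).1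
  refine h.mem_IZ.mpr ⟨q * (a + n₀), ?_⟩
  convert sub_mem h1 h2 using 1
  funext s
  fin_cases s <;> simp [serR_qR]

/-- `(a, b)` is a reduction iff `b - qR a` lies in the ideal. -/
theorem Setup.exists_mem_Bn_iff_IZ : ∃ n₀ : ℕ, ∀ n, n₀ ≤ n → ∀ a b : Rk A M,
    (a : KM A M) ∈ Hk A M n → (b : KM A M) ∈ Hk A M (q * n) →
    (![serR A M a, serR A M b] ∈ Bn A M q h.hqM n ↔ b - qR A M q a ∈ IZ h) := by
  obtain ⟨n₁, hn₁⟩ := h.exists_graph
  obtain ⟨n₂, hn₂⟩ := h.exists_descend
  refine ⟨n₁ + n₂, fun n hn a b ha hb => ?_⟩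
  have hg := (hn₁ n (by omega) (serR A M a) (coe_mem_HkS.mpr ha)).1
  have e : ![serR A M a, serR A M b] =
      ![serR A M a, qExpand (Res A) q (serR A M a)] + ![0, serR A M (b - qR A M q a)] := by
    funext s; fin_cases s <;> simp [serR_qR]
  constructor
  · intro hab
    rw [e] at hab
    exact h.mem_IZ.mpr ⟨n, by simpa using sub_mem hab hg⟩
  · intro hI
    obtain ⟨m, hm⟩ := h.mem_IZ.mp hI
    refine hn₂ n (by omega) (n + m) (by omega) _ ?_ ((mem_Pk A M).mpr
      ⟨coe_mem_HkS.mpr ha, coe_mem_HkS.mpr hb⟩)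
    rw [e]
    exact add_mem (h.Bn_mono (by omega) hg) (h.Bn_mono (by omega) hm)

/-- The functions on the meeting points. -/
abbrev VZ : Type := Rk A M ⧸ IZ h

omit h in
variable (A M) in
/-- `L(n ∞)` inside the ring of regular functions. -/
def toR (n : ℕ) : Hk A M n →ₗ[Res A] Rk A M where
  toFun x := ⟨x, n, x.2⟩
  map_add' _ _ := rfl
  map_smul' _ _ := rfl

/-- The gluing defect of a pair. -/
def gapMap (n : ℕ) : PK A M q n →ₗ[Res A] VZ h :=
  (Ideal.Quotient.mkₐ (Res A) (IZ (A := A) (M := M) h)).toLinearMap.comp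
    ((toR A M (q * n)).comp (LinearMap.snd _ _ _) -
      (qR A M q).toLinearMap.comp ((toR A M n).comp (LinearMap.fst _ _ _)))

theorem Setup.gapMap_eq (n : ℕ) (x : PK A M q n) :
    gapMap h n x = Ideal.Quotient.mk (IZ h)
      (toR A M (q * n) x.2 - qR A M q (toR A M n x.1)) := rfl

/-- **The glue is finite**: its functions have dimension the codimension of the reductions. -/
theorem Setup.exists_gap : ∃ n₀ : ℕ, FiniteDimensional (Res A) (VZ h) ∧ ∀ n, n₀ ≤ n →
    Function.Surjective (gapMap h n) ∧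
      Module.finrank (Res A) (PK A M q n) =
        Module.finrank (Res A) (Bn A M q h.hqM n) + Module.finrank (Res A) (VZ h) := by
  obtain ⟨n₁, hn₁⟩ := h.exists_mem_Bn_iff_IZ
  obtain ⟨n₂, hn₂⟩ := exists_finrank_eq (A := A) M q h.hM
  have hker : ∀ n, n₁ ≤ n →
      LinearMap.ker (gapMap h n) = (Bn A M q h.hqM n).comap (pkMap A M q n) := by
    intro n hn
    ext x
    rw [LinearMap.mem_ker, Submodule.mem_comap, pkMap_apply, h.gapMap_eq,
      Ideal.Quotient.eq_zero_iff_mem]
    exact (hn₁ n hn (toR A M n x.1) (toR A M (q * n) x.2) x.1.2 x.2.2).symm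
  have hdim : ∀ n, n₁ ≤ n → Module.finrank (Res A) (PK A M q n) =
      Module.finrank (Res A) (Bn A M q h.hqM n) +
        Module.finrank (Res A) (LinearMap.range (gapMap h n)) := by
    intro n hn
    have := LinearMap.finrank_range_add_finrank_ker (gapMap h n)
    rw [hker n hn] at this
    have hB : Bn A M q h.hqM n ≤ LinearMap.range (pkMap A M q n) := by
      rw [range_pkMap]; exact Bn_le_Pk M q h.hqM h.hA h.hM n
    have e := Submodule.map_comap_eq_of_le hB
    have e' := (Submodule.equivMapOfInjective (pkMap A M q n) (pkMap_injective n)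
      ((Bn A M q h.hqM n).comap (pkMap A M q n))).finrank_eq
    rw [e] at e'
    omega
  have hmono : ∀ m n, m ≤ n →
      LinearMap.range (gapMap h m) ≤ LinearMap.range (gapMap h n) := by
    rintro m n hmn _ ⟨x, rfl⟩
    exact ⟨(⟨x.1, RedTorsion.polesSpace_mono hmn x.1.2⟩,
      ⟨x.2, RedTorsion.polesSpace_mono (Nat.mul_le_mul_left q hmn) x.2.2⟩), rfl⟩
  set n₀ := n₁ + n₂ with hn₀
  have heq : ∀ n, n₀ ≤ n → LinearMap.range (gapMap h n₀) = LinearMap.range (gapMap h n) := by
    intro n hn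
    refine Submodule.eq_of_le_of_finrank_eq (hmono _ _ hn) ?_
    have hqn : n ≤ q * n := Nat.le_mul_of_pos_left n hq.out.pos
    have hqn₀ : n₀ ≤ q * n₀ := Nat.le_mul_of_pos_left n₀ hq.out.pos
    have e1 := hdim n₀ (by omega)
    have e2 := hdim n (by omega)
    rw [Module.finrank_prod, (finrank_Bn M q h.hqM h.hA _).2] at e1 e2
    obtain ⟨-, a2, a3⟩ := hn₂ n₀ (by omega)
    obtain ⟨-, b2, b3⟩ := hn₂ n (by omega)
    obtain ⟨-, -, c3⟩ := hn₂ (q * n₀) (by omega)
    obtain ⟨-, -, d3⟩ := hn₂ (q * n) (by omega)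
    have hψ : (dedekindPsi (q * M) : ℤ) = (q + 1) * dedekindPsi M := by
      rw [Gamma0.dedekindPsi_mul_of_not_dvd hq.out h.hqM]; push_cast; ring
    rw [hψ] at a2 b2
    push_cast at c3 d3
    linarith
  have htop : LinearMap.range (gapMap h n₀) = ⊤ := by
    refine eq_top_iff.mpr fun v _ => ?_
    obtain ⟨a, rfl⟩ := Ideal.Quotient.mk_surjective v
    obtain ⟨k, hk⟩ := a.2
    rw [heq (k + n₀) (by omega)]
    refine ⟨(0, ⟨a, RedTorsion.polesSpace_mono
      ((Nat.le_add_right k n₀).trans (Nat.le_mul_of_pos_left _ hq.out.pos)) hk⟩), ?_⟩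
    rw [h.gapMap_eq, map_zero (toR A M (k + n₀)), map_zero, sub_zero]
    rfl
  refine ⟨n₀, Module.Finite.of_surjective (gapMap h n₀) (LinearMap.range_eq_top.mp htop),
    fun n hn => ?_⟩
  have hn' : LinearMap.range (gapMap h n) = ⊤ := (heq n hn).symm.trans htop
  refine ⟨LinearMap.range_eq_top.mp hn', ?_⟩
  rw [hdim n (by omega), hn', finrank_top]

theorem Setup.finiteDimensional_VZ : FiniteDimensional (Res A) (VZ h) :=
  h.exists_gap.choose_spec.1

/-- The meeting points. -/
abbrev Pt : Type := VZ h →ₐ[Res A] Res A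

/-- Evaluation at a meeting point. -/
def ptEv (χ : Pt h) : Rk A M →ₐ[Res A] Res A :=
  χ.comp (Ideal.Quotient.mkₐ (Res A) (IZ (A := A) (M := M) h))

/-- Frobenius on the functions on the meeting points. -/
def qbar : VZ h →ₐ[Res A] VZ h :=
  Ideal.Quotient.liftₐ (IZ (A := A) (M := M) h)
    ((Ideal.Quotient.mkₐ (Res A) (IZ (A := A) (M := M) h)).comp (qR A M q)) fun _ ha =>
    Ideal.Quotient.eq_zero_iff_mem.mpr (h.qR_mem_IZ ha)

/-- The twist of a meeting point by Frobenius. -/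
def twist (χ : Pt h) : Pt h := χ.comp (qbar h)

theorem Setup.ptEv_twist (χ : Pt h) (a : Rk A M) :
    ptEv h (twist h χ) a = ptEv h χ (qR A M q a) := rfl

theorem Setup.twist_twist (χ : Pt h) : twist h (twist h χ) = χ := by
  refine AlgHom.ext fun v => ?_
  obtain ⟨a, rfl⟩ := Ideal.Quotient.mk_surjective v
  show ptEv h χ (qR A M q (qR A M q a)) = ptEv h χ a
  refine (sub_eq_zero.mp ?_).symm
  rw [← map_sub]
  show χ (Ideal.Quotient.mk (IZ (A := A) (M := M) h) _) = 0
  rw [Ideal.Quotient.eq_zero_iff_mem.mpr (h.sub_qR_qR_mem_IZ a), map_zero]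

/-- The functions on the meeting points are all functions. -/
theorem Setup.bijective_pt : Finite (Pt h) ∧
    Nat.card (Pt h) = Module.finrank (Res A) (VZ h) ∧
    Function.Bijective (fun v (χ : Pt h) => χ v) := by
  have := Arith.residueField_isAlgClosed A
  have := h.finiteDimensional_VZ
  obtain ⟨n₁, hn₁⟩ := exists_le_span_ratHk q h.hA h.hM h.good
  let mk' := Ideal.Quotient.mkₐ (Res A) (IZ (A := A) (M := M) h)
  refine bijective_points q 2 two_ne_zero
    (S := {v | ∃ a : Rk A M, serR A M a ^ q = qExpand (Res A) q (serR A M a) ∧ mk' a = v}) ?_ ?_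
  · refine eq_top_iff.mpr fun v _ => ?_
    obtain ⟨a, rfl⟩ := Ideal.Quotient.mk_surjective v
    obtain ⟨k, hk⟩ := a.2
    have hle : HkS A M (k + n₁) ≤ (Submodule.span (Res A)
        {a : Rk A M | serR A M a ^ q = qExpand (Res A) q (serR A M a)}).map
        (valLin A M ∘ₗ (Rk A M).val.toLinearMap) := by
      refine (hn₁ (k + n₁) (by omega)).trans (Submodule.span_le.mpr ?_)
      rintro z ⟨hz, hfix, -⟩
      obtain ⟨b, rfl, -⟩ := exists_serR hz
      exact ⟨b, Submodule.subset_span hfix, rfl⟩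
    obtain ⟨b, hb, hab⟩ := hle (coe_mem_HkS.mpr (RedTorsion.polesSpace_mono (by omega) hk))
    obtain rfl : b = a := serR_injective hab
    have h' := Submodule.mem_map_of_mem (f := mk'.toLinearMap) hb
    rw [Submodule.map_span] at h'
    refine Submodule.span_mono ?_ h'
    rintro _ ⟨c, hc, rfl⟩
    exact ⟨c, hc, rfl⟩
  · rintro _ ⟨a, ha, rfl⟩
    have hqa : qR A M q a = a ^ q := serR_injective (by rw [serR_qR, map_pow, ha])
    have := Ideal.Quotient.eq.mpr (h.sub_qR_qR_mem_IZ a)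
    rw [hqa, map_pow, hqa, ← pow_mul, ← sq, map_pow] at this
    exact this.symm

/-- Interpolation at the meeting points by functions with bounded poles. -/
theorem Setup.exists_interpolate : ∃ n₀ : ℕ, ∀ n, n₀ ≤ n → ∀ f : Pt h → Res A,
    ∃ a : Rk A M, (a : KM A M) ∈ Hk A M n ∧ ∀ χ, ptEv h χ a = f χ := by
  obtain ⟨n₁, -, hn₁⟩ := h.exists_gap
  refine ⟨q * n₁, fun n hn f => ?_⟩
  obtain ⟨v, hv⟩ := h.bijective_pt.2.2.2 f
  obtain ⟨x, hx⟩ := (hn₁ n₁ le_rfl).1 v
  refine ⟨toR A M (q * n₁) x.2 - qR A M q (toR A M n₁ x.1), ?_, fun χ => ?_⟩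
  · refine RedTorsion.polesSpace_mono hn ?_
    exact sub_mem x.2.2 (qK_mem_Hk x.1.2)
  · show χ (Ideal.Quotient.mk (IZ (A := A) (M := M) h) _) = _
    rw [← h.gapMap_eq, hx]
    exact congrFun hv χ

/-- The defect of a pair with respect to a twisted gluing. -/
def glueMap (c : Pt h → Res A) (n : ℕ) : PK A M q n →ₗ[Res A] (Pt h → Res A) :=
  LinearMap.pi fun χ =>
    (ptEv h χ).toLinearMap.comp ((toR A M (q * n)).comp (LinearMap.snd _ _ _)) -
      c χ • (ptEv h (twist h χ)).toLinearMap.comp ((toR A M n).comp (LinearMap.fst _ _ _))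

theorem Setup.glueMap_eq (c : Pt h → Res A) (n : ℕ) (x : PK A M q n) (χ : Pt h) :
    glueMap h c n x χ =
      ptEv h χ (toR A M (q * n) x.2) - c χ * ptEv h (twist h χ) (toR A M n x.1) := rfl

/-- The pairs glued by `c`. -/
def glued (c : Pt h → Res A) (n : ℕ) :
    Submodule (Res A) (Fin 2 → LaurentSeries (Res A)) :=
  (LinearMap.ker (glueMap h c n)).map (pkMap A M q n)

theorem Setup.mem_glued {c : Pt h → Res A} {n : ℕ} {r : Fin 2 → LaurentSeries (Res A)} :
    r ∈ glued h c n ↔ ∃ a b : Rk A M, (a : KM A M) ∈ Hk A M n ∧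
      (b : KM A M) ∈ Hk A M (q * n) ∧ r = ![serR A M a, serR A M b] ∧
      ∀ χ, ptEv h χ b = c χ * ptEv h (twist h χ) a := by
  constructor
  · rintro ⟨x, hx, rfl⟩
    refine ⟨toR A M n x.1, toR A M (q * n) x.2, x.1.2, x.2.2, pkMap_apply n x, fun χ => ?_⟩
    have := congrFun (LinearMap.mem_ker.mp hx) χ
    rw [h.glueMap_eq] at this
    exact sub_eq_zero.mp this
  · rintro ⟨a, b, ha, hb, rfl, hc⟩
    refine ⟨(⟨a, ha⟩, ⟨b, hb⟩), LinearMap.mem_ker.mpr (funext fun χ => ?_), pkMap_apply n _⟩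
    rw [h.glueMap_eq]
    exact sub_eq_zero.mpr (hc χ)

/-- Every gluing has the codimension of the reductions, and the trivial one gives them. -/
theorem Setup.exists_glued : ∃ n₀ : ℕ, ∀ n, n₀ ≤ n →
    (∀ c : Pt h → Res A, FiniteDimensional (Res A) (glued h c n) ∧
      Module.finrank (Res A) (glued h c n) = Module.finrank (Res A) (Bn A M q h.hqM n)) ∧
    glued h 1 n = Bn A M q h.hqM n := by
  obtain ⟨n₁, hn₁⟩ := h.exists_interpolate
  obtain ⟨n₂, -, hn₂⟩ := h.exists_gap
  obtain ⟨n₃, hn₃⟩ := h.exists_mem_Bn_iff_IZ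
  obtain ⟨hfin, hcard, hbij⟩ := h.bijective_pt
  have := Fintype.ofFinite (Pt h)
  refine ⟨n₁ + n₂ + n₃, fun n hn => ⟨fun c => ⟨?_, ?_⟩, ?_⟩⟩
  · unfold glued; infer_instance
  · have hsurj : LinearMap.range (glueMap h c n) = ⊤ := by
      refine LinearMap.range_eq_top.mpr fun f => ?_
      obtain ⟨b, hb, hbf⟩ := hn₁ (q * n)
        ((show n₁ ≤ n by omega).trans (Nat.le_mul_of_pos_left n hq.out.pos)) f
      refine ⟨(0, ⟨b, hb⟩), funext fun χ => ?_⟩
      rw [h.glueMap_eq, map_zero (toR A M n), map_zero, mul_zero, sub_zero]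
      exact hbf χ
    have e := LinearMap.finrank_range_add_finrank_ker (glueMap h c n)
    rw [hsurj, finrank_top, Module.finrank_fintype_fun_eq_card, ← Nat.card_eq_fintype_card,
      hcard, (hn₂ n (by omega)).2] at e
    rw [glued, ← (Submodule.equivMapOfInjective _ (pkMap_injective n) _).finrank_eq]
    omega
  · ext r
    rw [h.mem_glued]
    constructor
    · rintro ⟨a, b, ha, hb, rfl, hc⟩
      rw [hn₃ n (by omega) a b ha hb, ← Ideal.Quotient.eq_zero_iff_mem]
      refine hbij.1 (funext fun χ => ?_)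
      show ptEv h χ (b - qR A M q a) = χ 0
      rw [map_sub, ← h.ptEv_twist, hc χ, map_zero]
      simp
    · intro hr
      obtain ⟨hr0, hr1⟩ := (mem_Pk A M).mp (Bn_le_Pk M q h.hqM h.hA h.hM n hr)
      obtain ⟨a, ha, ha'⟩ := exists_serR hr0
      obtain ⟨b, hb, hb'⟩ := exists_serR hr1
      have e : r = ![serR A M a, serR A M b] := by
        rw [ha, hb]; funext s; fin_cases s <;> rfl
      refine ⟨a, b, ha', hb', e, fun χ => ?_⟩
      have h0 := Ideal.Quotient.eq_zero_iff_mem.mpr ((hn₃ n (by omega) a b ha' hb').mp (e ▸ hr))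
      have : ptEv h χ (b - qR A M q a) = 0 := (congrArg χ h0).trans (map_zero χ)
      rw [map_sub, sub_eq_zero, ← h.ptEv_twist] at this
      simpa using this

/-- Values at twisted points and Frobenius on coefficients. -/
theorem Setup.ptEv_frobenius (χ : Pt h) {a a' : Rk A M}
    (ha : serR A M a' = coeffMap (frobenius (Res A) q) (serR A M a)) :
    ptEv h χ a' = ptEv h (twist h χ) a ^ q := by
  have e : a ^ q = qR A M q a' := serR_injective (by
    rw [serR_qR, ha, map_pow, pow_char_eq_qExpand q])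
  rw [← map_pow, e, h.ptEv_twist]
  conv_lhs => rw [← h.twist_twist χ]
  rfl

end Fermat.Agent.Semistable

end
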