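import Mathlib
import Fermat.Agent.RedTorsion.ReducedBasis
import Fermat.Agent.Semistable.GaussBasis
import Fermat.Agent.Semistable.RootLemmas

/-!
# Traces from a radical extension with prescribed reduction

If `H ^ p = f` with `σ H` reducing to `1`, then the reduction of `a + b H` is the reduction of an
element of the function field, regular wherever `a`, `b H` and `σ H` are.
-/

set_option autoImplicit false
set_option linter.unusedSectionVars false

noncomputable section

namespace Fermat.Agent.Semistable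

open AlgebraicCurve Polynomial
open Arith (QBar)

attribute [local instance 2000] HahnSeries.powerSeriesAlgebra

variable {F : Type*} [Field F] [Algebra QBar F]

/-- Coefficient `i` has order at least `-i d` at `v`. -/
def gradSub (v : Place QBar F) (d : ℤ) : Subring F[X] where
  carrier := {G | ∀ i : ℕ, G.coeff i ∈ FF.ordGe v (-((i : ℤ) * d))}
  one_mem' i := by
    rw [coeff_one]
    split_ifs with hi
    · subst hi
      exact FF.mem_ordGe_of_le v (by simp)
    · exact zero_mem _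
  mul_mem' {P Q} hP hQ i := by
    rw [coeff_mul]
    refine sum_mem fun x hx => ?_
    refine FF.ordGe_anti v (le_of_eq ?_) (FF.mul_mem_ordGe v (hP x.1) (hQ x.2))
    rw [← Finset.HasAntidiagonal.mem_antidiagonal.mp hx]
    push_cast
    ring
  zero_mem' i := by rw [coeff_zero]; exact zero_mem _
  add_mem' {P Q} hP hQ i := by rw [coeff_add]; exact add_mem (hP i) (hQ i)
  neg_mem' {P} hP i := by rw [coeff_neg]; exact neg_mem (hP i)

theorem C_mem_gradSub (v : Place QBar F) (d : ℤ) {x : F} (hx : x ∈ FF.ordGe v 0) :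
    C x ∈ gradSub v d := fun i => by
  rw [coeff_C]
  split_ifs with hi
  · subst hi
    simpa using hx
  · exact zero_mem _

theorem C_mul_X_mem_gradSub (v : Place QBar F) (d : ℤ) {x : F} (hx : x ∈ FF.ordGe v (-d)) :
    C x * X ∈ gradSub v d := fun i => by
  rw [coeff_C_mul_X]
  split_ifs with hi
  · subst hi
    simpa using hx
  · exact zero_mem _

theorem sum_pow_primitiveRoot {p : ℕ} {ζ : QBar} (hζ : IsPrimitiveRoot ζ p) (i : ℕ) :
    ∑ j ∈ Finset.range p, (ζ ^ j) ^ i = if p ∣ i then (p : QBar) else 0 := by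
  simp only [← pow_mul, mul_comm _ i]
  simp only [pow_mul]
  split_ifs with h
  · rw [(hζ.pow_eq_one_iff_dvd i).mpr h]
    simp
  · have h1 : ζ ^ i ≠ 1 := fun h1 => h ((hζ.pow_eq_one_iff_dvd i).mp h1)
    have h2 := geom_sum_mul (ζ ^ i) p
    rw [pow_right_comm ζ i p, hζ.pow_eq_one, one_pow, sub_self] at h2
    exact (mul_eq_zero.mp h2).resolve_right (sub_ne_zero.mpr h1)

variable {A : ValuationSubring QBar} {q : ℕ}

/-- **The trace trick.** -/
theorem exists_trace (hA : A.LiesOverPrime q) (hq : q.Prime) {S : Type*} [Finite S]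
    (ι : S → (F →ₐ[QBar] LSer)) (hfrac : ∀ s x, ι s x ∈ fracS A) {p : ℕ} (hp : p.Prime)
    (hpu : (p : QBar) ∉ A.nonunits) (f σ₀ a b : F) (H : S → LSer)
    (hH : ∀ s, H s ^ p = ι s f) (hHf : ∀ s, H s ∈ fracS A)
    (hσ : ∀ s, ∃ h : ι s σ₀ * H s ∈ locS A, redL A ⟨_, h⟩ = 1)
    (r : S → LaurentSeries (Res A))
    (hx : ∀ s, ∃ h : ι s a + H s * ι s b ∈ locS A, redL A ⟨_, h⟩ = r s) :
    ∃ T : loc2 A ι, red2 A ι T = r ∧ ∀ (v : Place QBar F) (d : ℤ), v.ord f = (p : ℤ) * d →
      a ∈ FF.ordGe v 0 → b ∈ FF.ordGe v (-d) → σ₀ ∈ FF.ordGe v (-d) →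
      (T : F) ∈ FF.ordGe v 0 := by
  classical
  have := Fintype.ofFinite S
  have : NeZero p := ⟨hp.ne_zero⟩
  obtain ⟨ζ, hζ⟩ := HasEnoughRootsOfUnity.exists_primitiveRoot QBar p
  have hζA : ζ ∈ A := Arith.mem_of_isIntegral A (hζ.isIntegral hp.pos)
  have hpinv : (p : QBar)⁻¹ ∈ A :=
    ((Arith.notMem_nonunits_iff (natCast_mem A p)).mp hpu).2
  have hp0 : (p : QBar) ≠ 0 := by exact_mod_cast hp.ne_zero
  -- the series
  let x : S → ℕ → LSer := fun s j =>
    ι s a + algebraMap QBar LSer (ζ ^ j) * H s * ι s b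
  let e : S → ℕ → LSer := fun s j => algebraMap QBar LSer (p : QBar)⁻¹ *
    ∑ i ∈ Finset.range p, (algebraMap QBar LSer (ζ ^ j) * (ι s σ₀ * H s)) ^ i
  have he : ∀ s j, ∃ h : e s j ∈ locS A,
      redL A ⟨_, h⟩ = if p ∣ j then 1 else 0 := by
    intro s j
    obtain ⟨h1, h2⟩ := hσ s
    let c : locS A := ⟨_, algebraMap_mem_locS hpinv⟩
    let z : locS A := ⟨_, algebraMap_mem_locS (pow_mem hζA j)⟩
    let w : locS A := c * ∑ i ∈ Finset.range p, (z * ⟨_, h1⟩) ^ i
    have hw : (w : LSer) = e s j := by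
      simp only [w, c, z, e, MulMemClass.coe_mul, AddSubmonoidClass.coe_finsetSum,
        SubmonoidClass.coe_pow]
    refine ⟨hw ▸ w.2, ?_⟩
    rw [redL_congr _ w.2 hw.symm]
    change redL A w = _
    have hcr : redL A c = algebraMap (Res A) _ (IsLocalRing.residue A ⟨_, hpinv⟩) :=
      redL_algebraMap hpinv
    have hzr : redL A z = algebraMap (Res A) _ (IsLocalRing.residue A ⟨_, pow_mem hζA j⟩) :=
      redL_algebraMap (pow_mem hζA j)
    simp only [w, map_mul, map_sum, map_pow, h2, mul_one, hcr, hzr]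
    simp only [← map_pow, ← map_sum, ← map_mul]
    have key : (⟨(p : QBar)⁻¹, hpinv⟩ : A) *
        ∑ i ∈ Finset.range p, (⟨ζ ^ j, pow_mem hζA j⟩ : A) ^ i = if p ∣ j then 1 else 0 := by
      apply Subtype.ext
      simp only [MulMemClass.coe_mul, AddSubmonoidClass.coe_finsetSum, SubmonoidClass.coe_pow,
        apply_ite (Subtype.val : A → QBar), OneMemClass.coe_one, ZeroMemClass.coe_zero]
      have := sum_pow_primitiveRoot hζ j
      simp only [← pow_mul, mul_comm _ j] at this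
      simp only [← pow_mul]
      rw [this]
      split_ifs
      · exact inv_mul_cancel₀ hp0
      · exact mul_zero _
    rw [key]
    split_ifs <;> simp
  have hxf : ∀ s j, x s j ∈ fracS A := fun s j =>
    add_mem (hfrac s a) (mul_mem (mul_mem (algebraMap_mem_fracS _) (hHf s)) (hfrac s b))
  have hN : ∀ (s : S) (j : Fin p), (j : ℕ) ≠ 0 → ∃ N : ℕ, ∀ n, N ≤ n →
      ∃ h : x s j * e s j ^ n ∈ locS A, redL A ⟨_, h⟩ = 0 := by
    intro s j hj
    obtain ⟨h1, h2⟩ := he s j
    exact exists_pow_mul_mem hA hq (hxf s j) h1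
      (h2.trans (if_neg (Nat.not_dvd_of_pos_of_lt (Nat.pos_of_ne_zero hj) j.2)))
  obtain ⟨N, hN'⟩ : ∃ N : ℕ, ∀ (s : S) (j : Fin p), (j : ℕ) ≠ 0 →
      ∃ h : x s j * e s j ^ N ∈ locS A, redL A ⟨_, h⟩ = 0 := by
    choose N hN using fun sj : {sj : S × Fin p // (sj.2 : ℕ) ≠ 0} => hN sj.1.1 sj.1.2 sj.2
    exact ⟨∑ sj, N sj, fun s j hj => hN ⟨(s, j), hj⟩ _
      (Finset.single_le_sum (fun _ _ => Nat.zero_le _) (Finset.mem_univ _))⟩
  -- the polynomial and its trace
  set G : F[X] := (C a + C b * X) *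
    (C (algebraMap QBar F (p : QBar)⁻¹) * ∑ i ∈ Finset.range p, (C σ₀ * X) ^ i) ^ N with hG
  set T : F := (p : F) * ∑ i ∈ Finset.range (G.natDegree + 1),
    if p ∣ i then G.coeff i * f ^ (i / p) else 0 with hT
  have hTs : ∀ s, ι s T = ∑ j ∈ Finset.range p, x s j * e s j ^ N := by
    intro s
    have hev : ∀ j, x s j * e s j ^ N =
        G.eval₂ (ι s).toRingHom (algebraMap QBar LSer (ζ ^ j) * H s) := by
      intro j
      simp only [hG, eval₂_mul, eval₂_add, eval₂_pow, eval₂_finsetSum, eval₂_C, eval₂_X,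
        AlgHom.toRingHom_eq_coe, RingHom.coe_coe, AlgHom.commutes, x, e]
      refine congrArg₂ (· * ·) (by ring) (congrArg (· ^ N) (congrArg (_ * ·) ?_))
      refine Finset.sum_congr rfl fun i _ => ?_
      ring
    simp only [hev, eval₂_eq_sum_range]
    rw [Finset.sum_comm, hT, map_mul, map_natCast, map_sum, Finset.mul_sum]
    refine Finset.sum_congr rfl fun i _ => ?_
    simp only [mul_pow, ← map_pow, AlgHom.toRingHom_eq_coe, RingHom.coe_coe]
    rw [← Finset.mul_sum, ← Finset.sum_mul, ← map_sum, sum_pow_primitiveRoot hζ]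
    split_ifs with hi
    · rw [map_mul, map_pow, ← hH, ← pow_mul, Nat.mul_div_cancel' hi, map_natCast]
      ring
    · simp
  have hterm : ∀ s (j : Fin p), ∃ h : x s j * e s j ^ N ∈ locS A,
      redL A ⟨_, h⟩ = if (j : ℕ) = 0 then r s else 0 := by
    intro s j
    rcases eq_or_ne (j : ℕ) 0 with hj | hj
    · obtain ⟨h1, h2⟩ := he s j
      obtain ⟨h3, h4⟩ := hx s
      have hx0 : x s j = ι s a + H s * ι s b := by simp [x, hj]
      rw [if_pos hj]
      refine ⟨mul_mem (hx0 ▸ h3) (pow_mem h1 N), ?_⟩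
      have : redL A (⟨x s j, hx0 ▸ h3⟩ * ⟨_, h1⟩ ^ N) = r s := by
        rw [map_mul, map_pow, h2, if_pos (by rw [hj]; exact dvd_zero p), one_pow, mul_one,
          redL_congr _ h3 hx0, h4]
      exact this
    · rw [if_neg hj]; exact hN' s j hj
  choose hmem hred using hterm
  have hTloc : ∀ s, ι s T = ((∑ j : Fin p, (⟨_, hmem s j⟩ : locS A) : locS A) : LSer) := by
    intro s
    rw [hTs, AddSubmonoidClass.coe_finsetSum, Finset.sum_range]
  refine ⟨⟨T, (mem_loc2 ι).mpr fun s => hTloc s ▸ SetLike.coe_mem _⟩, funext fun s => ?_,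
    fun v d hf ha hb hσ₀ => ?_⟩
  · rw [red2_apply, redL_congr _ (SetLike.coe_mem _) (hTloc s)]
    change redL A (∑ j : Fin p, (⟨_, hmem s j⟩ : locS A)) = r s
    rw [map_sum]
    simp only [hred]
    rw [Finset.sum_eq_single (⟨0, hp.pos⟩ : Fin p) (fun j _ hj =>
      if_neg fun h => hj (Fin.ext h)) (fun h => absurd (Finset.mem_univ _) h), if_pos rfl]
  · have hreg : ∀ c : QBar, algebraMap QBar F c ∈ FF.ordGe v 0 := fun c =>
      FF.mem_ordGe_of_le v (by rw [FF.ord_algebraMap])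
    have hGv : G ∈ gradSub v d := mul_mem
      (add_mem (C_mem_gradSub v d ha) (C_mul_X_mem_gradSub v d hb))
      (pow_mem (mul_mem (C_mem_gradSub v d (hreg _))
        (sum_mem fun i _ => pow_mem (C_mul_X_mem_gradSub v d hσ₀) i)) N)
    show T ∈ FF.ordGe v 0
    rw [hT]
    refine FF.ordGe_anti v (by simp) (FF.mul_mem_ordGe v (m := 0) (n := 0)
      (by rw [← map_natCast (algebraMap QBar F)]; exact hreg _) (sum_mem fun i _ => ?_))
    split_ifs with hi
    · refine FF.ordGe_anti v (le_of_eq ?_) (FF.mul_mem_ordGe v (hGv i)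
        (FF.pow_mem_ordGe v (FF.mem_ordGe_of_le v (le_refl (v.ord f))) (i / p)))
      obtain ⟨k, rfl⟩ := hi
      rw [Nat.mul_div_cancel_left _ hp.pos, hf]
      push_cast
      ring
    · exact zero_mem _

end Fermat.Agent.Semistable

end
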