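import Mathlib
import Fermat.Agent.Semistable.Principal

/-!
# Inertia and Frobenius on Kummer classes of level `q M`, good `M`
-/

set_option autoImplicit false
set_option linter.unusedSectionVars false

noncomputable section

namespace Fermat.Agent.Semistable

open ModularCurve AlgebraicCurve Polynomial
open Arith (QBar)

attribute [local instance 2000] HahnSeries.powerSeriesAlgebra
attribute [local instance 10] IntermediateField.algebra'

variable {A : ValuationSubring QBar}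

theorem ResLift.nonunits_mem {σ : Arith.GQ} {φ : Res A →+* Res A} (hσ : ResLift A σ φ)
    {x : QBar} (hx : x ∈ A.nonunits) : σ x ∈ A.nonunits := by
  have hxA := Arith.mem_of_mem_nonunits hx
  refine (residue_eq_zero_iff (hσ.mem x hxA)).mp ?_
  rw [hσ.residue_eq x hxA, (residue_eq_zero_iff hxA).mpr hx, map_zero]

/-- The decomposition group preserves the valuation. -/
theorem ResLift.valuation_eq {σ : Arith.GQ} {φ : Res A →+* Res A} (hσ : ResLift A σ φ)
    (x : QBar) : A.valuation (σ x) = A.valuation x := by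
  refine Arith.valuation_map_eq_of_mem_iff σ (fun y => ⟨fun hy => ?_, hσ.mem y⟩) x
  by_contra hn
  have h1 := hσ.nonunits_mem (A.inv_mem_nonunits_iff.mpr (Or.inr hn))
  rw [map_inv₀] at h1
  exact (A.inv_mem_nonunits_iff.mp h1).elim (fun h0 => hn (by rw [(map_eq_zero σ).mp h0]; exact A.zero_mem)) (· hy)

variable {M : ℕ} [NeZero M] {q : ℕ} [hq : Fact q.Prime]

/-- The divisor action of Galois at level `q M`. -/
abbrev galD (σ : Arith.GQ) (D : Divisor QBar (FB (q * M))) : Divisor QBar (FB (q * M)) :=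
  arithmeticGalois (modularFunctionFieldFull (q * M)) σ • D

theorem ord_galF (σ : Arith.GQ) {D : Divisor QBar (FB (q * M))} {m : ℕ} {f : FB (q * M)}
    (hord : ∀ v, v.ord f = (m : ℤ) * D v) (v : Place QBar (FB (q * M))) :
    v.ord (galF (q * M) σ f) = (m : ℤ) * galD σ D v := by
  set g := arithmeticGalois (modularFunctionFieldFull (q * M)) σ
  have h1 := SemilinearAut.ord_smul g (g⁻¹ • v) f
  rw [smul_inv_smul] at h1
  rw [galD, SemilinearAut.divisor_smul_apply, ← hord]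
  exact h1

theorem ord_div_of_ord {D D' : Divisor QBar (FB (q * M))} {m : ℕ} {f f' : FB (q * M)}
    (hf : f ≠ 0) (hf' : f' ≠ 0) (hord : ∀ v, v.ord f = (m : ℤ) * D v)
    (hord' : ∀ v, v.ord f' = (m : ℤ) * D' v) (v : Place QBar (FB (q * M))) :
    v.ord (f' / f) = (m : ℤ) * (D' - D) v := by
  rw [FF.ord_div v hf' hf, hord, hord', Finsupp.sub_apply]
  ring

variable [CharP (Res A) q] [FF.IsFunctionField (Res A) (KM A M)] (h : Setup A M q)
include h

/-- A Kummer function with constant reductions `a` for `D`. -/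
def HasKummer (D : Divisor QBar (FB (q * M))) (m : ℕ) (a : Fin 2 → Res A) : Prop :=
  (∀ s, a s ≠ 0) ∧ ∃ f : loc2 A (iota2 M q h.hqM), (∀ v, v.ord (f : FB (q * M)) = (m : ℤ) * D v) ∧
    ∀ s, red2 A (iota2 M q h.hqM) f s = algebraMap (Res A) _ (a s)

variable {h}

theorem HasKummer.exists_isGlue {D : Divisor QBar (FB (q * M))} {m : ℕ} {a : Fin 2 → Res A}
    (hk : HasKummer h D m a) (hm : m ≠ 0) :
    ∃ c : Pt h → Res A, IsGlue h D c ∧ ∀ χ, c χ ≠ 0 ∧ a 1 * c χ ^ m = a 0 := by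
  obtain ⟨ha, f, hord, hred⟩ := hk
  obtain ⟨c, hc, hca⟩ := h.exists_isGlue hm f hord a ha hred
  refine ⟨c, hc, fun χ => ⟨fun h0 => ha 0 ?_, hca χ⟩⟩
  rw [← hca χ, h0, zero_pow hm, mul_zero]

theorem HasKummer.ne_zero {f : loc2 A (iota2 M q h.hqM)} {a : Fin 2 → Res A}
    (ha : ∀ s, a s ≠ 0) (hred : ∀ s, red2 A (iota2 M q h.hqM) f s = algebraMap (Res A) _ (a s)) :
    (f : FB (q * M)) ≠ 0 := fun h0 => ha 0 (by
  have h1 := hred 0
  rw [show f = 0 from Subtype.ext h0, map_zero] at h1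
  exact (_root_.map_eq_zero _).mp h1.symm)

theorem HasKummer.add {D D' : Divisor QBar (FB (q * M))} {m : ℕ} {a a' : Fin 2 → Res A}
    (hk : HasKummer h D m a) (hk' : HasKummer h D' m a') :
    HasKummer h (D + D') m (a * a') := by
  obtain ⟨ha, f, hord, hred⟩ := hk
  obtain ⟨ha', f', hord', hred'⟩ := hk'
  refine ⟨fun s => mul_ne_zero (ha s) (ha' s), f * f', fun v => ?_, fun s => ?_⟩
  · rw [MulMemClass.coe_mul, v.ord_mul (HasKummer.ne_zero (h := h) ha hred)
      (HasKummer.ne_zero (h := h) ha' hred'), hord, hord', Finsupp.add_apply]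
    ring
  · rw [map_mul, Pi.mul_apply, hred, hred', Pi.mul_apply, map_mul]

theorem HasKummer.neg {D : Divisor QBar (FB (q * M))} {m : ℕ} {a : Fin 2 → Res A}
    (hk : HasKummer h D m a) : HasKummer h (-D) m a⁻¹ := by
  obtain ⟨ha, f, hord, hred⟩ := hk
  obtain ⟨hi, hi'⟩ := inv_mem_loc2 (iota2 M q h.hqM) f
    (fun s => by rw [hred]; exact (_root_.map_ne_zero _).mpr (ha s))
  refine ⟨fun s => inv_ne_zero (ha s), ⟨_, hi⟩, fun v => ?_, fun s => ?_⟩
  · rw [v.ord_inv, hord, Finsupp.neg_apply, mul_neg]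
  · rw [hi' s, hred, Pi.inv_apply, map_inv₀]

theorem HasKummer.zero (m : ℕ) : HasKummer h 0 m 1 :=
  ⟨fun _ => one_ne_zero, 1, fun v => by simp, fun s => by simp⟩

theorem HasKummer.nsmul {D : Divisor QBar (FB (q * M))} {m : ℕ} {a : Fin 2 → Res A}
    (hk : HasKummer h D m a) : ∀ k : ℕ, HasKummer h (k • D) m (a ^ k)
  | 0 => by rw [zero_smul, pow_zero]; exact HasKummer.zero m
  | k + 1 => by rw [succ_nsmul, pow_succ]; exact (hk.nsmul k).add hk

/-- Gluings of sums. -/
theorem HasKummer.isGlue_add {D D' : Divisor QBar (FB (q * M))} {m : ℕ} {a a' : Fin 2 → Res A}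
    (hm : m ≠ 0) (hk : HasKummer h D m a) (hk' : HasKummer h D' m a') {c c' : Pt h → Res A}
    (hc : IsGlue h D c) (hc' : IsGlue h D' c') : IsGlue h (D + D') (c * c') := by
  obtain ⟨e, he, -⟩ := (hk.add hk').exists_isGlue hm
  rwa [← h.isGlue_eq_mul hc hc' he]

theorem HasKummer.isGlue_nsmul {D : Divisor QBar (FB (q * M))} {m : ℕ} {a : Fin 2 → Res A}
    (hm : m ≠ 0) (hk : HasKummer h D m a) {c : Pt h → Res A} (hc : IsGlue h D c) :
    ∀ k : ℕ, IsGlue h (k • D) (c ^ k)
  | 0 => by rw [zero_smul, pow_zero]; exact h.isGlue_zero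
  | k + 1 => by
    rw [succ_nsmul, pow_succ]
    exact HasKummer.isGlue_add hm (hk.nsmul k) hk (hk.isGlue_nsmul hm hc k) hc

/-- Classes with the same gluing are equal. -/
theorem HasKummer.sub_mem_principal {D D' : Divisor QBar (FB (q * M))} {m : ℕ}
    {a a' : Fin 2 → Res A} (hm : m ≠ 0) (hmq : ¬ q ∣ m)
    (hk : HasKummer h D m a) (hk' : HasKummer h D' m a') {c : Pt h → Res A}
    (hc0 : ∀ χ, c χ ≠ 0) (hc : IsGlue h D c) (hc' : IsGlue h D' c) :
    D' - D ∈ Divisor.principal (K := QBar) (F := FB (q * M)) := by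
  have hk2 : HasKummer h (D' - D) m (a' * a⁻¹) := by rw [sub_eq_add_neg]; exact hk'.add hk.neg
  obtain ⟨e, he, -⟩ := hk2.exists_isGlue hm
  have h1 : e * c = c := h.isGlue_unique (HasKummer.isGlue_add hm hk2 hk he hc)
    (by rwa [sub_add_cancel])
  have he1 : e = 1 := funext fun χ =>
    mul_right_cancel₀ (hc0 χ) ((congrFun h1 χ).trans (one_mul (c χ)).symm)
  subst he1
  obtain ⟨ha, f, hord, hred⟩ := hk2
  exact h.principal_of_glue_one hm hmq f hord _ ha hred he

theorem HasKummer.galois {σ : Arith.GQ} {φ : Res A →+* Res A} (hσ : ResLift A σ φ)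
    {D : Divisor QBar (FB (q * M))} {m : ℕ} {a : Fin 2 → Res A} (hk : HasKummer h D m a) :
    HasKummer h (galD σ D) m (fun s => φ (a s)) := by
  obtain ⟨ha, f, hord, hred⟩ := hk
  obtain ⟨hm', hr⟩ := hσ.galF_mem_loc2 M q h.hqM f
  refine ⟨fun s => (_root_.map_ne_zero φ).mpr (ha s), ⟨_, hm'⟩, ord_galF σ hord, fun s => ?_⟩
  rw [hr s, hred, coeffMap_algebraMap]

theorem HasKummer.wAut {D : Divisor QBar (FB (q * M))} {m : ℕ} {a : Fin 2 → Res A}
    (hk : HasKummer h D m a) : HasKummer h (wAut h • D) m ![a 1, a 0] := by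
  obtain ⟨ha, f, hord, hred⟩ := hk
  obtain ⟨hw, hwr⟩ := h.wEquiv_red2 f
  refine ⟨fun s => by fin_cases s <;> simp [ha], ⟨_, hw⟩, fun v => ?_, fun s => ?_⟩
  · rw [SemilinearAut.divisor_smul_apply, ← hord, h.ord_wEquiv]
  · rw [hwr]
    fin_cases s <;> simp [hred]

/-- For `σ` in inertia and a Kummer function `f`, `σ f / f` has constant reductions. -/
theorem Setup.hasKummer_inertia {σ : Arith.GQ} (hσ : σ ∈ A.inertiaSubgroupIn ℚ)
    {D : Divisor QBar (FB (q * M))} {m : ℕ} {f : FB (q * M)} (hf : f ≠ 0)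
    (hord : ∀ v, v.ord f = (m : ℤ) * D v) :
    ∃ a, HasKummer h (galD σ D - D) m a := by
  have hL := resLift_of_inertia hσ
  set f1 := galF (q * M) σ f / f with hf1
  have hgf : galF (q * M) σ f ≠ 0 := (_root_.map_ne_zero _).mpr hf
  have key : ∀ s, ∃ (b : Res A) (hm : iota2 M q h.hqM s f1 ∈ locS A),
      b ≠ 0 ∧ redL A ⟨_, hm⟩ = algebraMap (Res A) _ b := by
    intro s
    obtain ⟨c, hc0, hcy, hcr⟩ :=
      exists_scale h.hA hq.out (iota2_fracS (A := A) M q h.hqM s f) ((_root_.map_ne_zero _).mpr hf)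
    obtain ⟨hy', hyr⟩ := hL.redL_coeffMap hcy
    rw [coeffMap_id] at hyr
    obtain ⟨hi, hi'⟩ := inv_mem_locS hcy hcr
    have hval : A.valuation (c / σ c) = 1 := by
      rw [map_div₀, hL.valuation_eq, div_self ((Valuation.ne_zero_iff _).mpr hc0)]
    have hκ : c / σ c ∈ A := (A.valuation_le_one_iff _).mp hval.le
    have hκ' : IsLocalRing.residue A ⟨c / σ c, hκ⟩ ≠ 0 := fun h0 =>
      ((ValuationSubring.mem_nonunits_iff A).mp ((residue_eq_zero_iff hκ).mp h0)).ne hval
    have hsig : iota2 M q h.hqM s (galF (q * M) σ f) =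
        coeffMap (σ : QBar →+* QBar) (iota2 M q h.hqM s f) := by
      fin_cases s
      · exact coe_arithmeticRingAut σ f
      · refine (iota2_one M q h.hqM _).trans ?_
        rw [wEquiv_galois, coe_arithmeticRingAut]
        exact congrArg _ (iota2_one M q h.hqM f).symm
    have e : iota2 M q h.hqM s f1 = ((⟨_, algebraMap_mem_locS hκ⟩ *
        (⟨_, hy'⟩ * ⟨_, hi⟩) : locS A) : LSer) := by
      show _ = algebraMap QBar LSer (c / σ c) *
        (coeffMap (σ : QBar →+* QBar) (algebraMap QBar LSer c * iota2 M q h.hqM s f) *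
          (algebraMap QBar LSer c * iota2 M q h.hqM s f)⁻¹)
      rw [hf1, map_div₀, hsig, map_mul, coeffMap_algebraMap, map_div₀]
      have h1 : algebraMap QBar LSer c ≠ 0 := (_root_.map_ne_zero _).mpr hc0
      have h2 : algebraMap QBar LSer (σ c) ≠ 0 :=
        (_root_.map_ne_zero _).mpr ((_root_.map_ne_zero σ).mpr hc0)
      have h3 : iota2 M q h.hqM s f ≠ 0 := (_root_.map_ne_zero _).mpr hf
      simp only [RingHom.coe_coe]
      field_simp
    refine ⟨_, e ▸ SetLike.coe_mem _, hκ', ?_⟩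
    rw [redL_congr _ (SetLike.coe_mem _) e]
    change redL A (_ * _) = _
    rw [map_mul, map_mul, redL_algebraMap hκ, hyr, hi', mul_inv_cancel₀ hcr, mul_one]
  choose b hm hb0 hbr using key
  exact ⟨b, hb0, ⟨f1, (mem_loc2 _).mpr hm⟩, ord_div_of_ord hf hgf hord (ord_galF σ hord),
    fun s => hbr s⟩

/-- **Inertia acts unipotently**: `(σ - 1)² D` is principal. -/
theorem Setup.inertia_sq_principal {σ : Arith.GQ} (hσ : σ ∈ A.inertiaSubgroupIn ℚ)
    {D : Divisor QBar (FB (q * M))} {m : ℕ} (hm : m ≠ 0) (hmq : ¬ q ∣ m) {f : FB (q * M)}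
    (hf : f ≠ 0) (hord : ∀ v, v.ord f = (m : ℤ) * D v) :
    galD σ (galD σ D - D) - (galD σ D - D) ∈ Divisor.principal (K := QBar) (F := FB (q * M)) := by
  obtain ⟨a, hk⟩ := h.hasKummer_inertia hσ hf hord
  obtain ⟨c, hc, hc0⟩ := hk.exists_isGlue hm
  have hk' : HasKummer h (galD σ (galD σ D - D)) m a := hk.galois (resLift_of_inertia hσ)
  obtain ⟨c', hc', -⟩ := hk'.exists_isGlue hm
  obtain rfl := h.isGlue_inertia hσ hc hc'
  exact hk.sub_mem_principal hm hmq hk' (fun χ => (hc0 χ).1) hc hc'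

/-- **The square of Frobenius is `q²` on toric classes.** -/
theorem Setup.frobenius_sq_principal {σ : Arith.GQ} (hσ : A.IsFrobeniusAt σ q)
    {D : Divisor QBar (FB (q * M))} {m : ℕ} (hm : m ≠ 0) (hmq : ¬ q ∣ m) {a : Fin 2 → Res A}
    (hk : HasKummer h D m a) :
    galD σ (galD σ D) - (q ^ 2) • D ∈ Divisor.principal (K := QBar) (F := FB (q * M)) := by
  have hL := resLift_of_frobenius hσ
  obtain ⟨c, hc, hc0⟩ := hk.exists_isGlue hm
  obtain ⟨c', hc', -⟩ := (hk.galois hL).exists_isGlue hm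
  obtain ⟨c'', hc'', -⟩ := ((hk.galois hL).galois hL).exists_isGlue hm
  have e1 := h.isGlue_frobenius hσ hc hc'
  have e2 := h.isGlue_frobenius hσ hc' hc''
  have e : c'' = c ^ (q ^ 2) := by
    funext χ
    rw [e2, e1]
    show (c (twist h (twist h χ)) ^ q) ^ q = c χ ^ (q ^ 2)
    rw [h.twist_twist, ← pow_mul, sq]
  subst e
  exact (hk.nsmul _).sub_mem_principal hm hmq ((hk.galois hL).galois hL)
    (fun χ => pow_ne_zero _ (hc0 χ).1) (hk.isGlue_nsmul hm hc _) hc''

/-- **Frobenius is `-q w` on toric classes.** -/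
theorem Setup.frobenius_add_wAut_principal {σ : Arith.GQ} (hσ : A.IsFrobeniusAt σ q)
    {D : Divisor QBar (FB (q * M))} {m : ℕ} (hm : m ≠ 0) (hmq : ¬ q ∣ m) {a : Fin 2 → Res A}
    (hk : HasKummer h D m a) :
    galD σ D + q • (Fermat.Agent.Semistable.wAut h • D) ∈
      Divisor.principal (K := QBar) (F := FB (q * M)) := by
  have hL := resLift_of_frobenius hσ
  obtain ⟨c, hc, hc0⟩ := hk.exists_isGlue hm
  obtain ⟨c', hc', -⟩ := (hk.galois hL).exists_isGlue hm
  obtain ⟨c'', hc'', -⟩ := hk.wAut.exists_isGlue hm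
  have e1 := h.isGlue_frobenius hσ hc hc'
  have e2 := h.isGlue_wAut hc hc''
  have hk3 := (hk.galois hL).add (hk.wAut.nsmul q)
  have hg := HasKummer.isGlue_add hm (hk.galois hL) (hk.wAut.nsmul q) hc'
    (hk.wAut.isGlue_nsmul hm hc'' q)
  have e : c' * c'' ^ q = 1 := by
    funext χ
    rw [e1, Pi.mul_apply, Pi.pow_apply, ← mul_pow, mul_comm, e2 χ, one_pow, Pi.one_apply]
  rw [e] at hg
  obtain ⟨ha, f, hord, hred⟩ := hk3
  exact h.principal_of_glue_one hm hmq f hord _ ha hred hg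

end Fermat.Agent.Semistable

end
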